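import Fermat.Prelude.Def_ModularCurve_PeriodMap
import Mathlib.Analysis.Complex.UpperHalfPlane.MoebiusAction
import Mathlib.Dynamics.PeriodicPts.Lemmas
import Mathlib.LinearAlgebra.Matrix.Adjugate
import Mathlib.LinearAlgebra.Matrix.Charpoly.Coeff
import Mathlib.Tactic.LinearCombination

/-!
# Transfer sums

For a subgroup `Γ ≤ SL(2, ℤ)`, a finite family `M : ι → M₂(ℤ)` of matrices of nonzero
determinant and `γ ∈ Γ` with `M i * γ = g i * M (σ i)`, we study `∑ i, φ (g i)`.
-/

set_option autoImplicit false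

noncomputable section

namespace Fermat.Agent.Periods

open scoped MatrixGroups
open Function

/-- Integral 2×2 matrices. -/
abbrev IntMat : Type := Matrix (Fin 2) (Fin 2) ℤ

section Cycles

variable {ι A : Type*} [AddCommMonoid A]

theorem sum_eq_zero_of_orbits [Fintype ι] (σ : Equiv.Perm ι) (f : ι → A)
    (h : ∀ (i : ι) (n : ℕ), σ^[n] i = i → ∑ m ∈ Finset.range n, f (σ^[m] i) = 0) :
    ∑ i, f i = 0 := by
  classical
  suffices H : ∀ s : Finset ι, (∀ i ∈ s, σ i ∈ s) → ∑ i ∈ s, f i = 0 from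
    H Finset.univ fun i _ => Finset.mem_univ _
  intro s
  induction s using Finset.strongInduction with
  | H s ih =>
    intro hs
    rcases s.eq_empty_or_nonempty with rfl | ⟨x, hx⟩
    · simp
    have hper : x ∈ periodicPts σ :=
      mk_mem_periodicPts (n := orderOf σ) (orderOf_pos σ) (by
        show σ^[orderOf σ] x = x
        rw [Equiv.Perm.iterate_eq_pow, pow_orderOf_eq_one]; rfl)
    set n := minimalPeriod σ x with hn
    have hn0 : 0 < n := minimalPeriod_pos_of_mem_periodicPts hper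
    set O := (Finset.range n).image (fun m => σ^[m] x) with hO
    have hOs : O ⊆ s := by
      intro y hy
      obtain ⟨m, -, rfl⟩ := Finset.mem_image.1 hy
      clear hy
      induction m with
      | zero => exact hx
      | succ m ihm => rw [iterate_succ_apply']; exact hs _ ihm
    have hxO : x ∈ O := Finset.mem_image.2 ⟨0, Finset.mem_range.2 hn0, rfl⟩
    have hrest : ∀ y ∈ s \ O, σ y ∈ s \ O := by
      intro y hy
      rw [Finset.mem_sdiff] at hy ⊢
      refine ⟨hs y hy.1, fun hc => hy.2 ?_⟩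
      obtain ⟨m, hm, hmy⟩ := Finset.mem_image.1 hc
      rw [Finset.mem_range] at hm
      rcases m.eq_zero_or_pos with rfl | hm0
      · refine Finset.mem_image.2 ⟨n - 1, Finset.mem_range.2 (by omega), σ.injective ?_⟩
        rw [← iterate_succ_apply' σ (n - 1) x, show (n - 1).succ = n by omega, hn,
          iterate_minimalPeriod]
        exact hmy
      · refine Finset.mem_image.2 ⟨m - 1, Finset.mem_range.2 (by omega), σ.injective ?_⟩
        rw [← iterate_succ_apply' σ (m - 1) x, show (m - 1).succ = m by omega]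
        exact hmy
    rw [← Finset.sum_sdiff hOs, ih _ (Finset.sdiff_ssubset hOs ⟨x, hxO⟩) hrest, zero_add, hO,
      Finset.sum_image]
    · exact h x n iterate_minimalPeriod
    · intro a ha b hb hab
      exact iterate_injOn_Iio_minimalPeriod (Finset.mem_range.1 ha) (Finset.mem_range.1 hb) hab

end Cycles

section Matrices

theorem intMat_mul_right_cancel {X Y M : IntMat} (hM : M.det ≠ 0) (h : X * M = Y * M) : X = Y := by
  have := congrArg (· * M.adjugate) h
  simp only [Matrix.mul_assoc, Matrix.mul_adjugate, Matrix.mul_smul, Matrix.mul_one] at this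
  exact smul_right_injective _ hM this

theorem intMat_trace_eq_of_conj {X Y M : IntMat} (hM : M.det ≠ 0) (h : M * X = Y * M) :
    Y.trace = X.trace := by
  have h2 := congrArg (fun Z => (Z * M.adjugate).trace) h
  rw [Matrix.trace_mul_cycle, Matrix.adjugate_mul, Matrix.mul_assoc Y, Matrix.mul_adjugate,
    Matrix.smul_mul, Matrix.one_mul, Matrix.mul_smul, Matrix.mul_one, Matrix.trace_smul,
    Matrix.trace_smul, smul_eq_mul, smul_eq_mul] at h2
  exact (mul_left_cancel₀ hM h2).symm

/-- Powers of a matrix of determinant one: `tr(Xⁿ)² - 4` is a square times `tr(X)² - 4`. -/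
theorem exists_trace_pow_sq_sub_four {X : IntMat} (hd : X.det = 1) (n : ℕ) :
    ∃ u : ℤ, (X ^ n).trace ^ 2 - 4 = u ^ 2 * (X.trace ^ 2 - 4) := by
  suffices H : ∃ u v : ℤ, X ^ n = u • X - v • (1 : IntMat) ∧
      u ^ 2 - X.trace * u * v + v ^ 2 = 1 by
    obtain ⟨u, v, hX, huv⟩ := H
    refine ⟨u, ?_⟩
    rw [hX, Matrix.trace_sub, Matrix.trace_smul, Matrix.trace_smul, Matrix.trace_one,
      Fintype.card_fin, smul_eq_mul, smul_eq_mul]
    push_cast
    linear_combination 4 * huv
  have hch : X * X = X.trace • X - (1 : IntMat) := by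
    ext i j
    rw [Matrix.det_fin_two] at hd
    fin_cases i <;> fin_cases j <;>
      simp [Matrix.mul_apply, Fin.sum_univ_two, Matrix.trace_fin_two, -zsmul_eq_mul] <;>
      first | linear_combination hd | linear_combination -hd | ring1
  induction n with
  | zero => exact ⟨0, -1, by simp, by ring⟩
  | succ n ih =>
    obtain ⟨u, v, hX, huv⟩ := ih
    refine ⟨X.trace * u - v, u, ?_, by linear_combination huv⟩
    rw [pow_succ, hX, Matrix.sub_mul, Matrix.smul_mul, Matrix.smul_mul, Matrix.one_mul, hch]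
    module

theorem trace_pow_sq_eq_four {X : IntMat} (hd : X.det = 1) (ht : X.trace ^ 2 = 4) (n : ℕ) :
    (X ^ n).trace ^ 2 = 4 := by
  obtain ⟨u, hu⟩ := exists_trace_pow_sq_sub_four hd n
  rw [ht, sub_self, mul_zero] at hu
  linarith

theorem trace_pow_sq_le_four {X : IntMat} (hd : X.det = 1) (ht : X.trace ^ 2 ≤ 4) (n : ℕ) :
    (X ^ n).trace ^ 2 ≤ 4 := by
  obtain ⟨u, hu⟩ := exists_trace_pow_sq_sub_four hd n
  nlinarith [sq_nonneg u]

end Matrices

variable {Γ : Subgroup SL(2, ℤ)} {ι : Type*}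

/-- The integral matrix underlying an element of a subgroup of `SL(2, ℤ)`. -/
abbrev gammaMat (γ : Γ) : IntMat := ((γ : SL(2, ℤ)) : Matrix (Fin 2) (Fin 2) ℤ)

theorem gammaMat_mul (γ δ : Γ) : gammaMat (γ * δ) = gammaMat γ * gammaMat δ := rfl

theorem gammaMat_one : gammaMat (1 : Γ) = 1 := rfl

theorem gammaMat_pow (γ : Γ) (n : ℕ) : gammaMat (γ ^ n) = gammaMat γ ^ n := by
  induction n with
  | zero => simp [gammaMat_one]
  | succ n ih => rw [pow_succ, pow_succ, gammaMat_mul, ih]

theorem gammaMat_det (γ : Γ) : (gammaMat γ).det = 1 := (γ : SL(2, ℤ)).2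

theorem gammaMat_injective : Function.Injective (gammaMat : Γ → IntMat) :=
  fun _ _ h => Subtype.ext (Subtype.ext h)

/-- `(σ, g)` describes right multiplication by `γ` on the family `M` modulo `Γ` on the left. -/
def CosetStep (M : ι → IntMat) (γ : Γ) (σ : Equiv.Perm ι) (g : ι → Γ) : Prop :=
  ∀ i, M i * gammaMat γ = gammaMat (g i) * M (σ i)

theorem CosetStep.comp {M : ι → IntMat} {γ δ : Γ} {σ τ : Equiv.Perm ι} {g h : ι → Γ}
    (h₁ : CosetStep M γ σ g) (h₂ : CosetStep M δ τ h) :
    CosetStep M (γ * δ) (σ.trans τ) (fun i => g i * h (σ i)) := by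
  intro i
  rw [Equiv.trans_apply, gammaMat_mul, gammaMat_mul, ← Matrix.mul_assoc, h₁ i, Matrix.mul_assoc,
    h₂ (σ i), Matrix.mul_assoc]

theorem cosetStep_one (M : ι → IntMat) : CosetStep M (1 : Γ) (Equiv.refl ι) (fun _ => 1) := by
  intro i; simp [gammaMat_one]

theorem CosetStep.iterate {M : ι → IntMat} {γ : Γ} {σ : Equiv.Perm ι} {g : ι → Γ}
    (h : CosetStep M γ σ g) {A : Type*} [AddCommGroup A] (φ : Additive Γ →+ A) (n : ℕ) (i : ι) :
    ∃ x : Γ, M i * gammaMat (γ ^ n) = gammaMat x * M (σ^[n] i) ∧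
      φ (Additive.ofMul x) = ∑ m ∈ Finset.range n, φ (Additive.ofMul (g (σ^[m] i))) := by
  induction n with
  | zero => exact ⟨1, by simp [gammaMat_one], by simp⟩
  | succ n ih =>
    obtain ⟨x, hx, hφ⟩ := ih
    refine ⟨x * g (σ^[n] i), ?_, ?_⟩
    · rw [pow_succ, gammaMat_mul, ← Matrix.mul_assoc, hx, Matrix.mul_assoc, h (σ^[n] i),
        iterate_succ_apply', gammaMat_mul, Matrix.mul_assoc]
    · rw [ofMul_mul, map_add, hφ, Finset.sum_range_succ]

/-- The family `M` lies in pairwise distinct left `Γ`-cosets. -/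
def IsSeparated (Γ : Subgroup SL(2, ℤ)) (M : ι → IntMat) : Prop :=
  ∀ (i j : ι) (g : Γ), M i = gammaMat g * M j → i = j

variable [Fintype ι] {A : Type*} [AddCommGroup A]

/-- Two descriptions of the same right multiplication give the same transfer sum. -/
theorem CosetStep.sum_eq {M : ι → IntMat} (hdet : ∀ i, (M i).det ≠ 0) {γ : Γ}
    {σ τ : Equiv.Perm ι} {g h : ι → Γ} (h₁ : CosetStep M γ σ g) (h₂ : CosetStep M γ τ h)
    (φ : Additive Γ →+ A) :
    ∑ i, φ (Additive.ofMul (g i)) = ∑ i, φ (Additive.ofMul (h i)) := by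
  set π : Equiv.Perm ι := σ.symm.trans τ with hπ
  set d : ι → Γ := fun j => (g (σ.symm j))⁻¹ * h (σ.symm j) with hd
  have hs : CosetStep M (1 : Γ) π d := by
    intro j
    obtain ⟨i, rfl⟩ := σ.surjective j
    have : gammaMat (g i) * M (σ i) = gammaMat (h i) * M (τ i) := (h₁ i).symm.trans (h₂ i)
    simp only [hπ, hd, Equiv.trans_apply, Equiv.symm_apply_apply, gammaMat_one, Matrix.mul_one]
    rw [gammaMat_mul, Matrix.mul_assoc, ← this, ← Matrix.mul_assoc, ← gammaMat_mul,
      inv_mul_cancel, gammaMat_one, Matrix.one_mul]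
  have h0 : ∑ j, φ (Additive.ofMul (d j)) = 0 := by
    refine sum_eq_zero_of_orbits π _ fun j n hn => ?_
    obtain ⟨x, hx, hφ⟩ := hs.iterate φ n j
    rw [hn, one_pow, gammaMat_one, Matrix.mul_one] at hx
    have hx1 : x = 1 := gammaMat_injective (intMat_mul_right_cancel (hdet j) (by
      rw [gammaMat_one, Matrix.one_mul]; exact hx.symm))
    rw [← hφ, hx1, ofMul_one, map_zero]
  rw [← Equiv.sum_comp σ] at h0
  simp only [hd, Equiv.symm_apply_apply, ofMul_mul, ofMul_inv, map_add, map_neg,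
    Finset.sum_add_distrib, Finset.sum_neg_distrib, neg_add_eq_zero] at h0
  exact h0

variable {M : ι → IntMat}

/-- The transfer sum vanishes on `γ`, when `φ` kills every element whose trace is that of some
power of `γ`. -/
theorem CosetStep.sum_eq_zero (hdet : ∀ i, (M i).det ≠ 0) {γ : Γ} {σ : Equiv.Perm ι} {g : ι → Γ}
    (h : CosetStep M γ σ g) (φ : Additive Γ →+ A)
    (hφ : ∀ (n : ℕ) (x : Γ), (gammaMat x).trace = (gammaMat γ ^ n).trace →
      φ (Additive.ofMul x) = 0) :
    ∑ i, φ (Additive.ofMul (g i)) = 0 := by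
  refine sum_eq_zero_of_orbits σ _ fun i n hn => ?_
  obtain ⟨x, hx, hs⟩ := h.iterate φ n i
  rw [hn, gammaMat_pow] at hx
  rw [← hs]
  exact hφ n x (intMat_trace_eq_of_conj (hdet i) hx)

end Fermat.Agent.Periods

end
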