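import Fermat.Agent.Periods.Defs
import Fermat.Agent.Periods.Transfer
import Mathlib.Algebra.BigOperators.GroupWithZero.Action
import Mathlib.Data.Fintype.Option
import Mathlib.Data.Nat.Prime.Basic
import Mathlib.RingTheory.Int.Basic

/-!
Team PER (helper51): Hecke operators on `Hom(Γ₀(N), A)`.

For a prime `p` the coset representatives are `(1, j; 0, p)` for `j < p`, together with
`(p, 0; 0, 1)` when `p ∤ N`. If `Mᵢ γ = gᵢ M_{σ i}` with `gᵢ ∈ Γ₀(N)`, then
`(heckeHom φ) γ = ∑ φ gᵢ`. So this is `T_p` for `p ∤ N` and `U_p` for `p ∣ N`.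
-/

set_option autoImplicit false

open CongruenceSubgroup ModularCurve.Period
open scoped MatrixGroups

namespace Fermat.Agent.Periods

theorem mk_mem_Gamma0 {N : ℕ} {a b c d : ℤ} (h : (!![a, b; c, d] : IntMat).det = 1)
    (hc : (N : ℤ) ∣ c) : (⟨!![a, b; c, d], h⟩ : SL(2, ℤ)) ∈ Gamma0 N := by
  refine Gamma0_mem.2 ?_
  show ((c : ℤ) : ZMod N) = 0
  exact (ZMod.intCast_zmod_eq_zero_iff_dvd c N).2 hc

theorem gammaMat_entries {N : ℕ} (γ : Gamma0 N) :
    ∃ a b c d : ℤ, gammaMat γ = !![a, b; c, d] ∧ a * d - b * c = 1 ∧ (N : ℤ) ∣ c := by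
  refine ⟨_, _, _, _, Matrix.eta_fin_two _, ?_, ?_⟩
  · have := gammaMat_det γ
    rw [Matrix.det_fin_two] at this
    linarith
  · exact (ZMod.intCast_zmod_eq_zero_iff_dvd _ N).1 (Gamma0_mem.1 γ.2)

theorem exists_gamma0_of_entries {N : ℕ} {a b c d : ℤ} (h : a * d - b * c = 1) (hc : (N : ℤ) ∣ c) :
    ∃ g : Gamma0 N, gammaMat g = !![a, b; c, d] :=
  ⟨⟨⟨!![a, b; c, d], by rw [Matrix.det_fin_two_of]; exact h⟩, mk_mem_Gamma0 _ hc⟩, rfl⟩

/-- For `a` prime to `p`, there is `k < p` with `a * k ≡ b mod p`. -/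
theorem exists_fin_mul_sub_dvd {p : ℕ} (hp : p ≠ 0) {a : ℤ} (ha : IsCoprime a (p : ℤ)) (b : ℤ) :
    ∃ k : Fin p, (p : ℤ) ∣ b - a * (k : ℕ) := by
  obtain ⟨u, v, huv⟩ := ha
  have hp' : (0 : ℤ) < p := by exact_mod_cast Nat.pos_of_ne_zero hp
  refine ⟨⟨((u * b) % p).toNat, ?_⟩, ?_⟩
  · have := Int.emod_lt_of_pos (u * b) hp'
    have := Int.emod_nonneg (u * b) hp'.ne'
    omega
  · show (p : ℤ) ∣ b - a * (((u * b) % p).toNat : ℤ)
    rw [Int.toNat_of_nonneg (Int.emod_nonneg _ hp'.ne'), Int.emod_def]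
    exact ⟨v * b + a * (u * b / p), by linear_combination -b * huv⟩

theorem fin_eq_of_dvd_sub {p : ℕ} {i j : Fin p} {x : ℤ}
    (h : ((i : ℕ) : ℤ) = ((j : ℕ) : ℤ) + x * (p : ℤ)) : i = j := by
  have hi := i.2
  have hj := j.2
  have hp : (0 : ℤ) < (p : ℤ) := by omega
  have h1 : -1 < x := by
    by_contra hx
    have hx' : x ≤ -1 := by omega
    nlinarith
  have h2 : x < 1 := by
    by_contra hx
    have hx' : 1 ≤ x := by omega
    nlinarith
  obtain rfl : x = 0 := by omega
  exact Fin.ext (by omega)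

/-- Index set of the Hecke coset representatives. -/
abbrev HeckeIdx (N p : ℕ) : Type :=
  {x : Option (Fin p) // x = none → ¬ p ∣ N}

/-- The Hecke coset representatives. -/
def heckeMat (N p : ℕ) (i : HeckeIdx N p) : Matrix (Fin 2) (Fin 2) ℤ :=
  i.1.elim !![(p : ℤ), 0; 0, 1] (fun j => !![1, (j : ℤ); 0, (p : ℤ)])

theorem heckeMat_det (N p : ℕ) (i : HeckeIdx N p) : (heckeMat N p i).det = p := by
  obtain ⟨_ | j, h⟩ := i <;> simp [heckeMat, Matrix.det_fin_two_of]

variable {N p : ℕ}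

/-- The step through a matrix `!![1, k; 0, p]`, when the upper left entry is prime to `p`. -/
theorem exists_step_upper (hp : p ≠ 0) (j : Fin p) {a b c d : ℤ}
    (hdet : a * d - b * c = 1) (hc : (N : ℤ) ∣ c)
    (hcop : IsCoprime (a + (j : ℕ) * c) (p : ℤ)) :
    ∃ (k : Fin p) (g : Gamma0 N),
      !![1, (j : ℤ); 0, (p : ℤ)] * !![a, b; c, d] = gammaMat g * !![1, (k : ℤ); 0, (p : ℤ)] := by
  obtain ⟨k, m, hm⟩ := exists_fin_mul_sub_dvd hp hcop (b + (j : ℕ) * d)
  obtain ⟨g, hg⟩ := exists_gamma0_of_entries (N := N) (a := a + (j : ℕ) * c) (b := m)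
    (c := p * c) (d := d - c * (k : ℕ)) (by linear_combination hdet + c * hm) (dvd_mul_of_dvd_right hc _)
  refine ⟨k, g, ?_⟩
  rw [hg, Matrix.mul_fin_two, Matrix.mul_fin_two]
  congrm !![?_, ?_; ?_, ?_]
  · ring
  · linear_combination hm
  · ring
  · ring

theorem exists_transfer (hp : p.Prime) (γ : Gamma0 N) (i : HeckeIdx N p) :
    ∃ (j : HeckeIdx N p) (g : Gamma0 N),
      heckeMat N p i * ((γ : SL(2, ℤ)) : Matrix (Fin 2) (Fin 2) ℤ) =
        ((g : SL(2, ℤ)) : Matrix (Fin 2) (Fin 2) ℤ) * heckeMat N p j := by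
  have hp' : Prime (p : ℤ) := Nat.prime_iff_prime_int.1 hp
  obtain ⟨a, b, c, d, hγ, hdet, hc⟩ := gammaMat_entries γ
  change ∃ (j : HeckeIdx N p) (g : Gamma0 N),
    heckeMat N p i * gammaMat γ = gammaMat g * heckeMat N p j
  rw [hγ]
  obtain ⟨_ | j, hi⟩ := i
  · have hpN : ¬ p ∣ N := hi rfl
    by_cases hpc : (p : ℤ) ∣ c
    · obtain ⟨m, hm⟩ := hpc
      have hcop : IsCoprime (N : ℤ) (p : ℤ) :=
        Nat.isCoprime_iff_coprime.2 (hp.coprime_iff_not_dvd.2 hpN).symm
      obtain ⟨g, hg⟩ := exists_gamma0_of_entries (N := N) (a := a) (b := p * b) (c := m) (d := d)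
        (by linear_combination hdet + b * hm) (hcop.dvd_of_dvd_mul_left (hm ▸ hc))
      refine ⟨⟨none, fun _ => hpN⟩, g, ?_⟩
      simp only [heckeMat, Option.elim, hg, Matrix.mul_fin_two]
      congrm !![?_, ?_; ?_, ?_]
      · ring
      · ring
      · linear_combination hm
      · ring
    · obtain ⟨k, m, hm⟩ :=
        exists_fin_mul_sub_dvd hp.ne_zero (((hp'.coprime_iff_not_dvd).2 hpc).symm) d
      obtain ⟨g, hg⟩ := exists_gamma0_of_entries (N := N) (a := p * a) (b := b - a * (k : ℕ))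
        (c := c) (d := m) (by linear_combination hdet - a * hm) hc
      refine ⟨⟨some k, by simp⟩, g, ?_⟩
      simp only [heckeMat, Option.elim, hg, Matrix.mul_fin_two]
      congrm !![?_, ?_; ?_, ?_]
      · ring
      · ring
      · ring
      · linear_combination hm
  · by_cases hpa : (p : ℤ) ∣ a + (j : ℕ) * c
    · have hpN : ¬ p ∣ N := fun h => by
        have hpc : (p : ℤ) ∣ c := (Int.natCast_dvd_natCast.2 h).trans hc
        have hpa' : (p : ℤ) ∣ a := (dvd_add_left (hpc.mul_left _)).1 hpa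
        exact hp'.not_dvd_one (hdet ▸ dvd_sub (hpa'.mul_right d) (hpc.mul_left b))
      obtain ⟨m, hm⟩ := hpa
      obtain ⟨g, hg⟩ := exists_gamma0_of_entries (N := N) (a := m) (b := b + (j : ℕ) * d) (c := c)
        (d := p * d) (by linear_combination hdet - d * hm) hc
      refine ⟨⟨none, fun _ => hpN⟩, g, ?_⟩
      simp only [heckeMat, Option.elim, hg, Matrix.mul_fin_two]
      congrm !![?_, ?_; ?_, ?_]
      · linear_combination hm
      · ring
      · ring
      · ring
    · obtain ⟨k, g, hk⟩ := exists_step_upper hp.ne_zero j hdet hc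
        ((hp'.coprime_iff_not_dvd).2 hpa).symm
      exact ⟨⟨some k, by simp⟩, g, hk⟩

theorem heckeMat_det_ne_zero (hp : p.Prime) (i : HeckeIdx N p) : (heckeMat N p i).det ≠ 0 := by
  rw [heckeMat_det]; exact_mod_cast hp.ne_zero

theorem heckeMat_separated (hp : p.Prime) : IsSeparated (Gamma0 N) (heckeMat N p) := by
  intro i j g h
  have hp2 := hp.two_le
  obtain ⟨a, b, c, d, hg, -, -⟩ := gammaMat_entries g
  obtain ⟨_ | i, hi⟩ := i <;> obtain ⟨_ | j, hj⟩ := j <;>
    simp only [heckeMat, Option.elim, hg, Matrix.mul_fin_two] at h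
  · rfl
  · have h10 := congrFun (congrFun h 1) 0
    have h11 := congrFun (congrFun h 1) 1
    simp at h10 h11
    subst h10
    have : (p : ℤ) ∣ 1 := ⟨d, by rw [h11]; ring⟩
    have := Int.le_of_dvd one_pos this
    omega
  · have h00 := congrFun (congrFun h 0) 0
    simp at h00
    have : (p : ℤ) ∣ 1 := ⟨a, by rw [h00]; ring⟩
    have := Int.le_of_dvd one_pos this
    omega
  · have h00 := congrFun (congrFun h 0) 0
    have h01 := congrFun (congrFun h 0) 1
    simp at h00 h01
    obtain rfl : i = j := fin_eq_of_dvd_sub (x := b) (by rw [h01, ← h00, one_mul])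
    rfl

theorem transfer_unique (hp : p.Prime) {i j : HeckeIdx N p} {g : Gamma0 N}
    (h : heckeMat N p i = ((g : SL(2, ℤ)) : Matrix (Fin 2) (Fin 2) ℤ) * heckeMat N p j) :
    i = j ∧ g = 1 := by
  have hij : i = j := heckeMat_separated hp i j g h
  subst hij
  exact ⟨rfl, (gammaMat_injective (intMat_mul_right_cancel (heckeMat_det_ne_zero hp i)
    (by rw [gammaMat_one, Matrix.one_mul]; exact h.symm)))⟩

/-- The index moved to by right multiplication with `γ`. -/
noncomputable def transferIdx (hp : p.Prime) (γ : Gamma0 N) (i : HeckeIdx N p) : HeckeIdx N p :=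
  (exists_transfer hp γ i).choose

/-- The element `gᵢ` with `Mᵢ γ = gᵢ M_{σ i}`. -/
noncomputable def transferElt (hp : p.Prime) (γ : Gamma0 N) (i : HeckeIdx N p) : Gamma0 N :=
  (exists_transfer hp γ i).choose_spec.choose

theorem transfer_spec (hp : p.Prime) (γ : Gamma0 N) (i : HeckeIdx N p) :
    heckeMat N p i * ((γ : SL(2, ℤ)) : Matrix (Fin 2) (Fin 2) ℤ) =
      ((transferElt hp γ i : Gamma0 N) : SL(2, ℤ)).1 * heckeMat N p (transferIdx hp γ i) :=
  (exists_transfer hp γ i).choose_spec.choose_spec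

theorem transfer_eq (hp : p.Prime) {γ g : Gamma0 N} {i j : HeckeIdx N p}
    (h : heckeMat N p i * ((γ : SL(2, ℤ)) : Matrix (Fin 2) (Fin 2) ℤ) =
      ((g : SL(2, ℤ)) : Matrix (Fin 2) (Fin 2) ℤ) * heckeMat N p j) :
    transferIdx hp γ i = j ∧ transferElt hp γ i = g := by
  have e := transfer_spec hp γ i
  rw [h] at e
  have e' : heckeMat N p (transferIdx hp γ i) =
      gammaMat ((transferElt hp γ i)⁻¹ * g) * heckeMat N p j := by
    rw [gammaMat_mul, Matrix.mul_assoc]
    erw [e]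
    rw [← Matrix.mul_assoc]
    erw [← gammaMat_mul]
    rw [inv_mul_cancel, gammaMat_one, Matrix.one_mul]
  obtain ⟨h1, h2⟩ := transfer_unique hp e'
  exact ⟨h1, inv_mul_eq_one.1 h2⟩

theorem transferIdx_bijective (hp : p.Prime) (γ : Gamma0 N) :
    Function.Bijective (transferIdx hp γ) := by
  refine Finite.injective_iff_bijective.1 fun a b hab => heckeMat_separated hp a b
    (transferElt hp γ a * (transferElt hp γ b)⁻¹) (intMat_mul_right_cancel
      (M := gammaMat γ) (by rw [gammaMat_det]; exact one_ne_zero) ?_)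
  have ha : heckeMat N p a * gammaMat γ = _ := transfer_spec hp γ a
  have hb : heckeMat N p b * gammaMat γ = _ := transfer_spec hp γ b
  rw [Matrix.mul_assoc, hb, ← Matrix.mul_assoc]
  erw [← gammaMat_mul]
  rw [inv_mul_cancel_right, ha, hab]

/-- Right multiplication by `γ` as a permutation of the representatives. -/
noncomputable def transferPerm (hp : p.Prime) (γ : Gamma0 N) : Equiv.Perm (HeckeIdx N p) :=
  Equiv.ofBijective _ (transferIdx_bijective hp γ)

@[simp] theorem transferPerm_apply (hp : p.Prime) (γ : Gamma0 N) (i : HeckeIdx N p) :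
    transferPerm hp γ i = transferIdx hp γ i := rfl

theorem cosetStep_transfer (hp : p.Prime) (γ : Gamma0 N) :
    CosetStep (heckeMat N p) γ (transferPerm hp γ) (transferElt hp γ) :=
  fun i => transfer_spec hp γ i

theorem transferElt_mul (hp : p.Prime) (γ δ : Gamma0 N) (i : HeckeIdx N p) :
    transferElt hp (γ * δ) i = transferElt hp γ i * transferElt hp δ (transferIdx hp γ i) :=
  (transfer_eq hp (((cosetStep_transfer hp γ).comp (cosetStep_transfer hp δ)) i)).2

theorem sum_transferElt_mul (hp : p.Prime) {A : Type*} [AddCommGroup A]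
    (φ : Additive (Gamma0 N) →+ A) (γ δ : Gamma0 N) :
    ∑ i, φ (Additive.ofMul (transferElt hp (γ * δ) i)) =
      (∑ i, φ (Additive.ofMul (transferElt hp γ i))) +
        ∑ i, φ (Additive.ofMul (transferElt hp δ i)) := by
  simp only [transferElt_mul, ofMul_mul, map_add, Finset.sum_add_distrib]
  rw [(transferIdx_bijective hp γ).sum_comp (fun i => φ (Additive.ofMul (transferElt hp δ i)))]

theorem gammaMat_jConjGamma0 (γ : Gamma0 N) :
    gammaMat (jConjGamma0 N γ) = jConjMat (gammaMat γ) := rfl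

theorem heckeMat_jConj (hp : p.Prime) (i : HeckeIdx N p) :
    ∃ (j : HeckeIdx N p) (g : Gamma0 N),
      jConjMat (heckeMat N p i) = gammaMat g * heckeMat N p j := by
  obtain ⟨_ | i, hi⟩ := i
  · exact ⟨⟨none, hi⟩, 1, by simp [heckeMat, jConjMat, gammaMat_one]⟩
  obtain ⟨k, m, hm⟩ :=
    exists_fin_mul_sub_dvd hp.ne_zero (a := (1 : ℤ)) isCoprime_one_left (-((i : ℕ) : ℤ))
  obtain ⟨g, hg⟩ :=
    exists_gamma0_of_entries (N := N) (a := 1) (b := m) (c := 0) (d := 1) (by ring) (dvd_zero _)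
  refine ⟨⟨some k, by simp⟩, g, ?_⟩
  simp only [hg, heckeMat, Option.elim, jConjMat, Matrix.mul_fin_two, Matrix.of_apply,
    Matrix.cons_val', Matrix.cons_val_zero, Matrix.cons_val_one, Matrix.cons_val_fin_one]
  congrm !![?_, ?_; ?_, ?_]
  · ring
  · linear_combination hm
  · ring
  · ring

section Operator

variable {R : Type*} [Semiring R] {A : Type*} [AddCommGroup A] [Module R A]

variable (R A) in
/-- The Hecke operator on homomorphisms `Γ₀(N) → A`. -/
noncomputable def heckeHom (hp : p.Prime) :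
    (Additive (Gamma0 N) →+ A) →ₗ[R] (Additive (Gamma0 N) →+ A) where
  toFun φ := AddMonoidHom.mk'
    (fun γ => ∑ i, φ (Additive.ofMul (transferElt hp (Additive.toMul γ) i)))
    (fun γ δ => sum_transferElt_mul hp φ (Additive.toMul γ) (Additive.toMul δ))
  map_add' φ ψ := by
    ext γ
    simp [Finset.sum_add_distrib]
  map_smul' c φ := by
    ext γ
    simp [Finset.smul_sum]

theorem heckeHom_apply (hp : p.Prime) (φ : Additive (Gamma0 N) →+ A) (γ : Gamma0 N) :
    heckeHom R A hp φ (Additive.ofMul γ) = ∑ i, φ (Additive.ofMul (transferElt hp γ i)) :=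
  rfl

theorem heckeHom_apply_of_eq (hp : p.Prime) (φ : Additive (Gamma0 N) →+ A) (γ : Gamma0 N)
    (σ : HeckeIdx N p → HeckeIdx N p) (g : HeckeIdx N p → Gamma0 N)
    (h : ∀ i, heckeMat N p i * ((γ : SL(2, ℤ)) : Matrix (Fin 2) (Fin 2) ℤ) =
      ((g i : SL(2, ℤ)) : Matrix (Fin 2) (Fin 2) ℤ) * heckeMat N p (σ i)) :
    heckeHom R A hp φ (Additive.ofMul γ) = ∑ i, φ (Additive.ofMul (g i)) := by
  simp only [heckeHom_apply, fun i => (transfer_eq hp (h i)).2]

theorem heckeHom_comp (hp : p.Prime) {B : Type*} [AddCommGroup B] [Module R B] (f : A →+ B)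
    (φ : Additive (Gamma0 N) →+ A) :
    heckeHom R B hp (f.comp φ) = f.comp (heckeHom R A hp φ) := by
  ext γ
  obtain ⟨γ, rfl⟩ := Additive.ofMul.surjective γ
  simp [heckeHom_apply, map_sum]

theorem heckeHom_mem_cuspidalHoms (hp : p.Prime) {φ : Additive (Gamma0 N) →+ A}
    (hφ : φ ∈ cuspidalHoms R (Gamma0 N) A) :
    heckeHom R A hp φ ∈ cuspidalHoms R (Gamma0 N) A := by
  intro γ hγ
  refine (cosetStep_transfer hp γ).sum_eq_zero (heckeMat_det_ne_zero hp) φ fun n x hx => hφ x ?_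
  rw [show ((x : SL(2, ℤ)) : Matrix (Fin 2) (Fin 2) ℤ).trace = _ from hx]
  exact trace_pow_sq_le_four (gammaMat_det γ) hγ n

theorem heckeHom_mem_parabolicHoms (hp : p.Prime) {φ : Additive (Gamma0 N) →+ A}
    (hφ : φ ∈ parabolicHoms R (Gamma0 N) A) :
    heckeHom R A hp φ ∈ parabolicHoms R (Gamma0 N) A := by
  intro γ hγ
  refine (cosetStep_transfer hp γ).sum_eq_zero (heckeMat_det_ne_zero hp) φ fun n x hx => hφ x ?_
  rw [show ((x : SL(2, ℤ)) : Matrix (Fin 2) (Fin 2) ℤ).trace = _ from hx]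
  exact trace_pow_sq_eq_four (gammaMat_det γ) hγ n

theorem heckeHom_charInvolution (hp : p.Prime) (φ : Additive (Gamma0 N) →+ A) :
    heckeHom R A hp (charInvolution N R A φ) = charInvolution N R A (heckeHom R A hp φ) := by
  refine AddMonoidHom.ext fun γ' => ?_
  obtain ⟨γ, rfl⟩ := Additive.ofMul.surjective γ'
  choose e δ hδ using heckeMat_jConj (N := N) (p := p) hp
  have hinj : Function.Injective e := by
    intro x y hxy
    refine heckeMat_separated hp x y (jConjGamma0 N (δ x * (δ y)⁻¹)) ?_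
    have h1 : jConjMat (heckeMat N p x) =
        gammaMat (δ x * (δ y)⁻¹) * jConjMat (heckeMat N p y) := by
      rw [hδ y, ← Matrix.mul_assoc, ← gammaMat_mul, inv_mul_cancel_right, hδ x, hxy]
    have h2 := congrArg jConjMat h1
    rwa [jConjMat_jConjMat, jConjMat_mul, jConjMat_jConjMat, ← gammaMat_jConjGamma0] at h2
  have hbij := Finite.injective_iff_bijective.1 hinj
  have key : ∀ i, transferElt hp (jConjGamma0 N γ) (e i) =
      (δ i)⁻¹ * jConjGamma0 N (transferElt hp γ i) * δ (transferIdx hp γ i) := fun i => by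
    refine (transfer_eq hp (j := e (transferIdx hp γ i)) ?_).2
    have h1 := congrArg jConjMat (cosetStep_transfer hp γ i)
    rw [jConjMat_mul, jConjMat_mul, hδ, hδ, ← gammaMat_jConjGamma0, ← gammaMat_jConjGamma0,
      transferPerm_apply] at h1
    change heckeMat N p (e i) * gammaMat (jConjGamma0 N γ) = gammaMat _ * _
    rw [gammaMat_mul, gammaMat_mul]
    calc heckeMat N p (e i) * gammaMat (jConjGamma0 N γ)
        = gammaMat (δ i)⁻¹ *
            (gammaMat (δ i) * heckeMat N p (e i) * gammaMat (jConjGamma0 N γ)) := by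
          rw [← Matrix.mul_assoc, ← Matrix.mul_assoc, ← gammaMat_mul, inv_mul_cancel, gammaMat_one,
            Matrix.one_mul]
      _ = _ := by rw [h1]; simp only [Matrix.mul_assoc]
  rw [charInvolution_apply, toMul_ofMul, heckeHom_apply, heckeHom_apply,
    ← hbij.sum_comp (fun i => φ (Additive.ofMul (transferElt hp (jConjGamma0 N γ) i)))]
  simp only [key, ofMul_mul, ofMul_inv, map_add, map_neg, Finset.sum_add_distrib,
    Finset.sum_neg_distrib, charInvolution_apply, toMul_ofMul]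
  rw [(transferIdx_bijective hp γ).sum_comp (fun i => φ (Additive.ofMul (δ i)))]
  abel

end Operator

end Fermat.Agent.Periods
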