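import Fermat.Agent.Periods.Integral

/-!
Team PER (helper52): the full eigen-space of a normalised eigenform in the parabolic
cohomology of `Γ₀(N)` is two-dimensional, spanned by its two periods.
-/

set_option autoImplicit false

noncomputable section

open CongruenceSubgroup ModularCurve ModularCurve.Period Module ModularFormClass
open scoped MatrixGroups

namespace Fermat.Agent.Periods

variable (N : ℕ) [NeZero N]

local notation "S₂" => CuspForm (CongruenceSubgroup.Gamma0 N) 2

/-- Parabolic homomorphisms on which every Hecke operator at a prime `p` acts by `c p`. -/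
def eigenHoms (c : ℕ → ℂ) : Submodule ℂ (Additive (Gamma0 N) →+ ℂ) where
  carrier := {φ | φ ∈ parabolicHoms ℂ (Gamma0 N) ℂ ∧
    ∀ (p : ℕ) (hp : p.Prime), heckeHom ℂ ℂ hp φ = c p • φ}
  zero_mem' := ⟨zero_mem _, fun p hp => by simp⟩
  add_mem' := fun ha hb => ⟨add_mem ha.1 hb.1, fun p hp => by
    rw [map_add, ha.2 p hp, hb.2 p hp, smul_add]⟩
  smul_mem' := fun z φ hφ => ⟨Submodule.smul_mem _ z hφ.1, fun p hp => by
    rw [map_smul, hφ.2 p hp, smul_comm]⟩

variable {N}

theorem periodHomPair_mem_eigenHoms_iff {x : S₂ × S₂} {c : ℕ → ℂ} :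
    periodHomPair N x ∈ eigenHoms N c ↔ IsEigen x.1 c ∧ IsEigen x.2 c := by
  have hmem : periodHomPair N x ∈ parabolicHoms ℂ (Gamma0 N) ℂ := by
    rw [← range_periodHomPair N]; exact LinearMap.mem_range_self _ x
  have key : ∀ (p : ℕ) (y : S₂ × S₂),
      periodHomPair N y = c p • periodHomPair N x ↔ y.1 = c p • x.1 ∧ y.2 = c p • x.2 := by
    intro p y
    rw [← map_smul, (periodHomPair_injective N).eq_iff, Prod.ext_iff]
    rfl
  refine ⟨fun h => ⟨⟨fun p hp hpN => ?_, fun p hpN hp => ?_⟩, ⟨fun p hp hpN => ?_, fun p hpN hp => ?_⟩⟩,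
    fun h => ⟨hmem, fun p hp => ?_⟩⟩
  · have := h.2 p hp
    rw [heckeHom_periodHomPair_T hp hpN x.1 x.2, key] at this
    exact this.1
  · have := h.2 p hp
    rw [heckeHom_periodHomPair_U hp hpN x.1 x.2, key] at this
    exact this.1
  · have := h.2 p hp
    rw [heckeHom_periodHomPair_T hp hpN x.1 x.2, key] at this
    exact this.2
  · have := h.2 p hp
    rw [heckeHom_periodHomPair_U hp hpN x.1 x.2, key] at this
    exact this.2
  · by_cases hpN : p ∣ N
    · rw [heckeHom_periodHomPair_U hp hpN x.1 x.2, key]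
      exact ⟨h.1.2 p hpN hp, h.2.2 p hpN hp⟩
    · rw [heckeHom_periodHomPair_T hp hpN x.1 x.2, key]
      exact ⟨h.1.1 p hp hpN, h.2.1 p hp hpN⟩

/-- The eigen-space of a normalised eigenform is spanned by its two periods. -/
theorem eigenHoms_eq_span {f : S₂} {c : ℕ → ℂ} (hf : IsEigen f c) (hf1 : qCoeff f 1 = 1) :
    eigenHoms N c = Submodule.span ℂ (Set.range ![periodHomPair N (f, 0), periodHomPair N (0, f)]) := by
  apply le_antisymm
  · intro φ hφ
    obtain ⟨x, rfl⟩ : φ ∈ LinearMap.range (periodHomPair N) := by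
      rw [range_periodHomPair N]; exact hφ.1
    obtain ⟨h1, h2⟩ := periodHomPair_mem_eigenHoms_iff.mp hφ
    have hx : x = qCoeff x.1 1 • (f, (0 : S₂)) + qCoeff x.2 1 • ((0 : S₂), f) := by
      refine Prod.ext ?_ ?_ <;> simp [← hf.eq_smul h1 hf1, ← hf.eq_smul h2 hf1]
    rw [hx, map_add, map_smul, map_smul]
    exact add_mem (Submodule.smul_mem _ _ (Submodule.subset_span ⟨0, rfl⟩))
      (Submodule.smul_mem _ _ (Submodule.subset_span ⟨1, rfl⟩))
  · have h0 : IsEigen (0 : S₂) c := ⟨fun p hp hpN => by simp, fun p hpN hp => by simp⟩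
    rw [Submodule.span_le]
    rintro _ ⟨i, rfl⟩
    fin_cases i
    · exact periodHomPair_mem_eigenHoms_iff.mpr ⟨hf, h0⟩
    · exact periodHomPair_mem_eigenHoms_iff.mpr ⟨h0, hf⟩

/-- Multiplicity one in cohomology: the eigen-space has dimension two. -/
theorem finrank_eigenHoms {f : S₂} {c : ℕ → ℂ} (hf : IsEigen f c) (hf1 : qCoeff f 1 = 1) :
    finrank ℂ (eigenHoms N c) = 2 := by
  rw [eigenHoms_eq_span hf hf1]
  have hne : f ≠ 0 := by
    rintro rfl
    rw [show qCoeff (⇑(0 : S₂)) 1 = 0 from map_zero (qCoeffLin N 1)] at hf1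
    exact zero_ne_one hf1
  refine (finrank_span_eq_card ?_).trans (Fintype.card_fin 2)
  rw [LinearIndependent.pair_iff]
  intro a b hab
  rw [← map_smul, ← map_smul, ← map_add] at hab
  have h := periodHomPair_injective N (hab.trans (map_zero (periodHomPair N)).symm)
  obtain ⟨h1, h2⟩ := Prod.ext_iff.mp h
  simp only [Prod.smul_mk, Prod.mk_add_mk, smul_zero, add_zero, zero_add, Prod.fst_zero,
    Prod.snd_zero] at h1 h2
  exact ⟨(smul_eq_zero.mp h1).resolve_right hne, (smul_eq_zero.mp h2).resolve_right hne⟩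

/-- The eigen-space of a normalised eigenform in parabolic cohomology has dimension two. -/
theorem finrank_eigenHoms_of_isNormalizedEigenform {f : S₂} (hf : f.IsNormalizedEigenform) :
    finrank ℂ (eigenHoms N fun p => qCoeff f p) = 2 :=
  finrank_eigenHoms (isEigen_of_isNormalizedEigenform hf) hf.qCoeff_one

/-- An eigen-system occurring in parabolic cohomology is the one of a normalised eigenform. -/
theorem exists_eigenform_of_eigenHoms_ne_bot {c : ℕ → ℂ} (h : eigenHoms N c ≠ ⊥) :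
    ∃ f : S₂, f.IsNormalizedEigenform ∧ IsEigen f c := by
  obtain ⟨φ, hφ, hne⟩ := Submodule.exists_mem_ne_zero_of_ne_bot h
  obtain ⟨x, rfl⟩ : φ ∈ LinearMap.range (periodHomPair N) := by
    rw [range_periodHomPair N]; exact hφ.1
  obtain ⟨h1, h2⟩ := periodHomPair_mem_eigenHoms_iff.mp hφ
  have key : ∀ y : S₂, IsEigen y c → y ≠ 0 →
      ∃ f : S₂, f.IsNormalizedEigenform ∧ IsEigen f c := by
    intro y hy hy0
    have hf : IsEigen ((qCoeff y 1)⁻¹ • y) c := by
      refine ⟨fun p hp hpN => ?_, fun p hpN hp => ?_⟩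
      · rw [map_smul, hy.1 p hp hpN, smul_comm]
      · rw [map_smul, hy.2 p hpN hp, smul_comm]
    have hf1 : qCoeff (⇑((qCoeff y 1)⁻¹ • y)) 1 = 1 := by
      rw [qCoeff_smul, inv_mul_cancel₀ (hy.qCoeff_one_ne_zero hy0)]
    exact ⟨_, hf.isNormalizedEigenform hf1, hf⟩
  by_cases hx : x.1 = 0
  · refine key _ h2 fun h0 => hne ?_
    rw [show x = 0 from Prod.ext hx h0, map_zero]
  · exact key _ h1 hx

end Fermat.Agent.Periods
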