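/- Hecke operators and Fourier coefficients on S₂(Γ₀(N)). Owner: helper52. -/
import Fermat.Prelude.Def_CuspForm_HeckeAlgebra
import Fermat.Prelude.Def_FLTPrelim_Modularity
import Fermat.Prelude.Thm_ModularFormClass_qCoeff_heckeT
import Fermat.Prelude.Thm_ModularFormClass_qCoeff_heckeU
import Fermat.Prelude.Thm_CongruenceSubgroup_one_mem_strictPeriods_Gamma0
import Fermat.Prelude.Thm_UpperHalfPlane_eq_of_forall_qCoeff_eq

set_option autoImplicit false

noncomputable section

open ModularFormClass CongruenceSubgroup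

namespace Fermat.Agent.Periods

variable {N : ℕ}

local notation "S₂" => CuspForm (CongruenceSubgroup.Gamma0 N) 2
local notation "Γ₁" => one_mem_strictPeriods_Gamma0 N

theorem qCoeff_add (f g : S₂) (n : ℕ) :
    qCoeff (⇑(f + g)) n = qCoeff f n + qCoeff g n := by
  simp only [qCoeff, FunLike.coe_add, ModularForm.qExpansion_add (a := 2) (b := 2) one_pos Γ₁ f g,
    map_add]

theorem qCoeff_smul (c : ℂ) (f : S₂) (n : ℕ) : qCoeff (⇑(c • f)) n = c * qCoeff f n := by
  simp only [qCoeff, FunLike.coe_smul, ModularForm.qExpansion_smul (k := 2) one_pos Γ₁ c f,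
    PowerSeries.coeff_smul, smul_eq_mul]

/-- The `n`-th Fourier coefficient as a linear functional. -/
def qCoeffLin (N n : ℕ) : CuspForm (CongruenceSubgroup.Gamma0 N) 2 →ₗ[ℂ] ℂ where
  toFun f := qCoeff f n
  map_add' f g := qCoeff_add f g n
  map_smul' c f := qCoeff_smul c f n

@[simp] theorem qCoeffLin_apply (n : ℕ) (f : S₂) : qCoeffLin N n f = qCoeff f n := rfl

theorem qCoeff_zero_eq_zero (f : S₂) : qCoeff f 0 = 0 :=
  CuspFormClass.qExpansion_coeff_zero f one_pos Γ₁

theorem ext_qCoeff {f g : S₂} (h : ∀ n, qCoeff f n = qCoeff g n) : f = g :=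
  haveI : Fact (IsCusp OnePoint.infty (Subgroup.map (Matrix.SpecialLinearGroup.mapGL ℝ) (Gamma0 N))) :=
    ⟨Subgroup.isCusp_of_mem_strictPeriods one_pos Γ₁⟩
  DFunLike.coe_injective <| UpperHalfPlane.eq_of_forall_qCoeff_eq
    (SlashInvariantFormClass.periodic_comp_ofComplex f Γ₁) (ModularFormClass.holo f)
    (ModularFormClass.bdd_at_infty f)
    (SlashInvariantFormClass.periodic_comp_ofComplex g Γ₁) (ModularFormClass.holo g)
    (ModularFormClass.bdd_at_infty g) h

theorem qCoeff_heckeTLin {p : ℕ} (hp : p.Prime) (hpN : ¬ p ∣ N) (f : S₂) (n : ℕ) :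
    qCoeff (⇑(CuspForm.heckeTLin 2 hp hpN f)) n
      = qCoeff f (n * p) + if p ∣ n then (p : ℂ) * qCoeff f (n / p) else 0 := by
  rw [CuspForm.coe_heckeTLin_apply, qCoeff_heckeT (k := 2) f Γ₁ hp.ne_zero, ModularForm.coeffHeckeT_apply]
  norm_num

variable [NeZero N]

theorem qCoeff_heckeULin {p : ℕ} (hp : p.Prime) (hpN : p ∣ N) (f : S₂) (n : ℕ) :
    qCoeff (⇑(CuspForm.heckeULin 2 hpN f)) n = qCoeff f (n * p) := by
  rw [CuspForm.coe_heckeULin_apply, qCoeff_heckeU (k := 2) f Γ₁ hp.ne_zero,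
    ModularForm.coeffHeckeU_apply]

theorem prime_mul_induction {motive : ℕ → Prop} (h0 : motive 0) (h1 : motive 1)
    (hmul : ∀ p m : ℕ, p.Prime → 0 < m → (∀ l, l ≤ m → motive l) → motive (m * p)) (n : ℕ) :
    motive n := by
  induction n using Nat.strong_induction_on with
  | _ n ih =>
    rcases Nat.lt_or_ge n 2 with hn | hn
    · interval_cases n
      · exact h0
      · exact h1
    · obtain ⟨p, hp, hpn⟩ := Nat.exists_prime_and_dvd (show n ≠ 1 by omega)
      obtain ⟨m, rfl⟩ := hpn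
      rw [mul_comm]
      have hm : 0 < m := Nat.pos_of_ne_zero fun h => by simp [h] at hn
      refine hmul p m hp hm fun l hl => ih l ?_
      calc l ≤ m := hl
        _ < p * m := lt_mul_of_one_lt_left hm hp.one_lt

variable (N)

/-- Every Fourier coefficient is the first coefficient after applying a Hecke operator. -/
theorem exists_coeffOp (n : ℕ) : ∃ t ∈ CuspForm.heckeAlgebra N 2 ∅,
    ∀ f : S₂, qCoeff f n = qCoeff (⇑(t f)) 1 := by
  induction n using prime_mul_induction with
  | h0 =>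
    refine ⟨0, zero_mem _, fun f => ?_⟩
    rw [qCoeff_zero_eq_zero, LinearMap.zero_apply]
    exact (map_zero (qCoeffLin N 1)).symm
  | h1 => exact ⟨1, one_mem _, fun f => rfl⟩
  | hmul p m hp hm ih =>
    obtain ⟨t, ht, htf⟩ := ih m le_rfl
    by_cases hpN : p ∣ N
    · refine ⟨t * CuspForm.heckeULin 2 hpN,
        mul_mem ht (CuspForm.heckeULin_mem_heckeAlgebra hp hpN (Set.notMem_empty p)), fun f => ?_⟩
      rw [← qCoeff_heckeULin hp hpN f m, htf]
      rfl
    · by_cases hpm : p ∣ m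
      · obtain ⟨s, hs, hsf⟩ := ih (m / p) (Nat.div_le_self m p)
        refine ⟨t * CuspForm.heckeTLin 2 hp hpN - (p : Module.End ℂ S₂) * s,
          sub_mem (mul_mem ht (CuspForm.heckeTLin_mem_heckeAlgebra hp hpN (Set.notMem_empty p)))
            (mul_mem (natCast_mem _ p) hs), fun f => ?_⟩
        have h := qCoeff_heckeTLin hp hpN f m
        rw [if_pos hpm] at h
        simp only [← qCoeffLin_apply] at h hsf htf ⊢
        rw [LinearMap.sub_apply, map_sub, Module.End.mul_apply, ← htf, Module.End.mul_apply,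
          Module.End.natCast_apply, ← Nat.cast_smul_eq_nsmul ℂ, map_smul, ← hsf, h, smul_eq_mul]
        ring
      · refine ⟨t * CuspForm.heckeTLin 2 hp hpN,
          mul_mem ht (CuspForm.heckeTLin_mem_heckeAlgebra hp hpN (Set.notMem_empty p)), fun f => ?_⟩
        have h := qCoeff_heckeTLin hp hpN f m
        rw [if_neg hpm, add_zero] at h
        rw [← h, htf]
        rfl

variable {N}

/-- A cusp form is zero as soon as all first coefficients of its Hecke translates vanish. -/
theorem eq_zero_of_forall_qCoeff_one {f : S₂}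
    (h : ∀ t ∈ CuspForm.heckeAlgebra N 2 ∅, qCoeff (⇑(t f)) 1 = 0) : f = 0 :=
  ext_qCoeff fun n => by
    obtain ⟨t, ht, htf⟩ := exists_coeffOp N n
    rw [htf, h t ht]
    exact (map_zero (qCoeffLin N n)).symm

/-- A common eigenvector of all `T_ℓ` and `U_q`, with eigenvalue the `p`-th entry of `c`. -/
def IsEigen (f : CuspForm (CongruenceSubgroup.Gamma0 N) 2) (c : ℕ → ℂ) : Prop :=
  (∀ (p : ℕ) (hp : p.Prime) (hpN : ¬ p ∣ N), CuspForm.heckeTLin 2 hp hpN f = c p • f) ∧
    ∀ (p : ℕ) (hpN : p ∣ N), p.Prime → CuspForm.heckeULin 2 hpN f = c p • f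

theorem IsEigen.qCoeff_mul {f : S₂} {c : ℕ → ℂ} (hf : IsEigen f c) {p : ℕ} (hp : p.Prime) (m : ℕ) :
    qCoeff f (m * p) = c p * qCoeff f m
      - if ¬ p ∣ N ∧ p ∣ m then (p : ℂ) * qCoeff f (m / p) else 0 := by
  by_cases hpN : p ∣ N
  · rw [← qCoeff_heckeULin hp hpN, hf.2 p hpN hp, qCoeff_smul]
    simp [hpN]
  · have h := qCoeff_heckeTLin hp hpN f m
    rw [hf.1 p hp hpN, qCoeff_smul] at h
    simp only [hpN, not_false_eq_true, true_and]
    linear_combination -h

/-- Multiplicity one for full eigen-systems: the coefficients are `a₁` times a universal sequence. -/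
theorem IsEigen.eq_smul {f g : S₂} {c : ℕ → ℂ} (hf : IsEigen f c) (hg : IsEigen g c)
    (hf1 : qCoeff f 1 = 1) : g = qCoeff g 1 • f := by
  refine ext_qCoeff fun n => ?_
  rw [qCoeff_smul]
  induction n using prime_mul_induction with
  | h0 => simp [qCoeff_zero_eq_zero]
  | h1 => rw [hf1, mul_one]
  | hmul p m hp hm ih =>
    rw [hg.qCoeff_mul hp m, hf.qCoeff_mul hp m, ih m le_rfl]
    split_ifs with h
    · rw [ih _ (Nat.div_le_self m p)]; ring
    · ring

theorem IsEigen.qCoeff_one_ne_zero {f : S₂} {c : ℕ → ℂ} (hf : IsEigen f c) (hne : f ≠ 0) :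
    qCoeff f 1 ≠ 0 := by
  intro h
  refine hne (ext_qCoeff fun n => ?_)
  rw [show qCoeff (⇑(0 : S₂)) n = 0 from map_zero (qCoeffLin N n)]
  induction n using prime_mul_induction with
  | h0 => exact qCoeff_zero_eq_zero f
  | h1 => exact h
  | hmul p m hp hm ih =>
    rw [hf.qCoeff_mul hp m, ih m le_rfl]
    split_ifs with h'
    · rw [ih _ (Nat.div_le_self m p)]; ring
    · ring

/-- A normalised eigenform is a common eigenvector with eigenvalues its prime coefficients. -/
theorem isEigen_of_isNormalizedEigenform {f : S₂} (hf : f.IsNormalizedEigenform) :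
    IsEigen f (fun p => qCoeff f p) := by
  have key : ∀ (p : ℕ), p.Prime → ∀ n, 0 < n →
      ∃ r m, n = p ^ r * m ∧ (p ^ r).Coprime m ∧ ∀ s, (p ^ s).Coprime m := by
    intro p hp n hn
    obtain ⟨r, m, hm, rfl⟩ := Nat.exists_eq_pow_mul_and_not_dvd hn.ne' p hp.ne_one
    have hc : p.Coprime m := (hp.coprime_iff_not_dvd).mpr hm
    exact ⟨r, m, rfl, hc.pow_left _, fun s => hc.pow_left _⟩
  refine ⟨fun p hp hpN => ext_qCoeff fun n => ?_, fun p hpN hp => ext_qCoeff fun n => ?_⟩
  · rw [qCoeff_heckeTLin hp hpN, qCoeff_smul]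
    rcases Nat.eq_zero_or_pos n with rfl | hn
    · simp [qCoeff_zero_eq_zero]
    obtain ⟨r, m, rfl, hc, hall⟩ := key p hp n hn
    rw [show p ^ r * m * p = p ^ (r + 1) * m by ring, hf.qCoeff_mul_of_coprime _ _ (hall _),
      hf.qCoeff_mul_of_coprime _ _ hc]
    cases r with
    | zero =>
      have hpm : ¬ p ∣ m := fun h => by
        have h1 := (hall 1)
        rw [pow_one, hp.coprime_iff_not_dvd] at h1
        exact h1 h
      simp [hpm, hf.qCoeff_one]
    | succ r =>
      have hd : p ^ (r + 1) * m / p = p ^ r * m := by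
        rw [show p ^ (r + 1) * m = p * (p ^ r * m) by ring, Nat.mul_div_cancel_left _ hp.pos]
      rw [if_pos (Dvd.dvd.mul_right (dvd_pow_self p r.succ_ne_zero) m), hd,
        hf.qCoeff_mul_of_coprime _ _ (hall r), hf.qCoeff_prime_pow_of_not_dvd p r hp hpN]
      ring
  · rw [qCoeff_heckeULin hp hpN, qCoeff_smul]
    rcases Nat.eq_zero_or_pos n with rfl | hn
    · simp [qCoeff_zero_eq_zero]
    obtain ⟨r, m, rfl, hc, hall⟩ := key p hp n hn
    rw [show p ^ r * m * p = p ^ (r + 1) * m by ring, hf.qCoeff_mul_of_coprime _ _ (hall _),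
      hf.qCoeff_mul_of_coprime _ _ hc]
    cases r with
    | zero => simp [hf.qCoeff_one]
    | succ r => rw [hf.qCoeff_prime_pow_of_dvd p r hp hpN]; ring

theorem IsEigen.qCoeff_prime {f : S₂} {c : ℕ → ℂ} (hf : IsEigen f c) (hf1 : qCoeff f 1 = 1)
    {p : ℕ} (hp : p.Prime) : qCoeff f p = c p := by
  have h := hf.qCoeff_mul hp 1
  simpa [hp.ne_one, hf1] using h

/-- A common eigenvector with first coefficient one is a normalised eigenform. -/
theorem IsEigen.isNormalizedEigenform {f : S₂} {c : ℕ → ℂ} (hf : IsEigen f c)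
    (hf1 : qCoeff f 1 = 1) : f.IsNormalizedEigenform where
  qCoeff_one := hf1
  qCoeff_mul_of_coprime m n := by
    induction m using prime_mul_induction with
    | h0 => intro h; simp [qCoeff_zero_eq_zero]
    | h1 => intro _; simp [hf1]
    | hmul p m hp hm ih =>
      intro h
      have hmn : m.Coprime n := Nat.Coprime.coprime_mul_right h
      have hpn : p.Coprime n := Nat.Coprime.coprime_mul_left h
      rw [show m * p * n = m * n * p by ring, hf.qCoeff_mul hp (m * n), hf.qCoeff_mul hp m,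
        ih m le_rfl hmn]
      have hdvd : p ∣ m * n ↔ p ∣ m := hpn.dvd_mul_right
      simp only [hdvd]
      split_ifs with hd
      · have hdm : m * n / p = m / p * n := (Nat.div_mul_right_comm hd.2 n).symm
        rw [hdm, ih _ (Nat.div_le_self m p) (Nat.Coprime.coprime_dvd_left (Nat.div_dvd_of_dvd hd.2) hmn)]
        ring
      · ring
  qCoeff_prime_pow_of_not_dvd p r hp hpN := by
    have hd : p ^ (r + 1) / p = p ^ r := by rw [pow_succ, Nat.mul_div_cancel _ hp.pos]
    rw [pow_succ p (r + 1), hf.qCoeff_mul hp, if_pos ⟨hpN, dvd_pow_self p r.succ_ne_zero⟩, hd,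
      hf.qCoeff_prime hf1 hp]
  qCoeff_prime_pow_of_dvd p r hp hpN := by
    rw [pow_succ p (r + 1), hf.qCoeff_mul hp, if_neg (fun h => h.1 hpN), hf.qCoeff_prime hf1 hp,
      sub_zero]

end Fermat.Agent.Periods
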