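import Fermat.Agent.Periods.Defs
import Fermat.Prelude.Def_ModularCurve_GenusNumerics
import Fermat.Agent.Periods.Group.Rank
import Fermat.Agent.Modular.Index
import Fermat.Agent.Modular.CuspCount
import Fermat.Agent.Modular.EllipticCount
import Mathlib.GroupTheory.Schreier
import Mathlib.GroupTheory.Finiteness

/-!
Team PER (helper50): group theory of `Γ₀(N)`: the Euler characteristic formula for cuspidal
homomorphisms, over an arbitrary field.
-/

set_option autoImplicit false

open CongruenceSubgroup ModularCurve ModularCurve.Period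
open scoped MatrixGroups

namespace Fermat.Agent.Periods

theorem parabolicHoms_eq_cuspidalHoms (N : ℕ) (R A : Type*) [Semiring R] [AddCommGroup A]
    [Module R A] [IsAddTorsionFree A] :
    parabolicHoms R (Gamma0 N) A = cuspidalHoms R (Gamma0 N) A := by
  ext φ
  rw [mem_parabolicHoms_iff, mem_cuspidalHoms_iff, isCuspidalHom_iff_of_torsionFree]

theorem group_fg_gamma0 (N : ℕ) [NeZero N] : Group.FG (Gamma0 N) := by
  have : Group.FG SL(2, ℤ) :=
    Group.fg_iff.2 ⟨{ModularGroup.S, ModularGroup.T}, SpecialLinearGroup.SL2Z_generators,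
      Set.toFinite _⟩
  exact Subgroup.fg_of_index_ne_zero _

theorem neg_one_mem_gamma0 (N : ℕ) : (-1 : SL(2, ℤ)) ∈ Gamma0 N := by
  rw [Gamma0_mem]; simp

theorem finite_cuspidalHoms (N : ℕ) [NeZero N] (F : Type*) [Field F] :
    Module.Finite F (cuspidalHoms F (Gamma0 N) F) := by
  let : Fintype (SL(2, ℤ) ⧸ Gamma0 N) := Subgroup.fintypeQuotientOfFiniteIndex
  exact finite_cuspidalHoms_of_finiteIndex (neg_one_mem_gamma0 N)

/-- Over every field, the cuspidal homomorphisms have dimension `2 g`. -/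
theorem finrank_cuspidalHoms_eq (N : ℕ) [NeZero N] (F : Type*) [Field F] :
    (Module.finrank F (cuspidalHoms F (Gamma0 N) F) : ℚ) = 2 * genusFormula N := by
  let : Fintype (SL(2, ℤ) ⧸ Gamma0 N) := Subgroup.fintypeQuotientOfFiniteIndex
  have hneg := neg_one_mem_gamma0 N
  have h := finrank_cuspidalHoms_add (Γ := Gamma0 N) (K := F) hneg
  have h2 := mul_card_cyclicOrbits (X := SL(2, ℤ) ⧸ Gamma0 N) ModularGroup.S 2
    (fun x => by rw [S_pow_two]; exact neg_one_smul_coset hneg x)
  have h3 := mul_card_cyclicOrbits (X := SL(2, ℤ) ⧸ Gamma0 N) genU 3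
    (fun x => by rw [genU_pow_three]; exact neg_one_smul_coset hneg x)
  have hμ : Nat.card (SL(2, ℤ) ⧸ Gamma0 N) = dedekindPsi N := by
    rw [← Subgroup.index_eq_card, Modular.index_Gamma0]
  have hT : Nat.card (CyclicOrbits ModularGroup.T (SL(2, ℤ) ⧸ Gamma0 N)) = cuspCount N :=
    Modular.natCard_cuspOrbit N
  rw [Modular.natCard_fixed_S] at h2
  rw [genU, Modular.natCard_fixed_S_mul_T] at h3
  rw [hμ] at h h2 h3
  rw [hT] at h
  rw [genU] at h
  have h' := congrArg (Nat.cast : ℕ → ℚ) h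
  have h2' := congrArg (Nat.cast : ℕ → ℚ) h2
  have h3' := congrArg (Nat.cast : ℕ → ℚ) h3
  push_cast at h' h2' h3'
  rw [genusFormula]
  linarith

theorem finrank_cuspidalHoms_le (N : ℕ) [NeZero N] (F : Type*) [Field F] :
    (Module.finrank F (cuspidalHoms F (Gamma0 N) F) : ℚ) ≤ 2 * genusFormula N :=
  (finrank_cuspidalHoms_eq N F).le

theorem finite_parabolicHoms_complex (N : ℕ) [NeZero N] :
    Module.Finite ℂ (parabolicHoms ℂ (Gamma0 N) ℂ) := by
  rw [parabolicHoms_eq_cuspidalHoms]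
  exact finite_cuspidalHoms N ℂ

theorem finrank_parabolicHoms_complex_le (N : ℕ) [NeZero N] :
    (Module.finrank ℂ (parabolicHoms ℂ (Gamma0 N) ℂ) : ℚ) ≤ 2 * genusFormula N := by
  rw [parabolicHoms_eq_cuspidalHoms]
  exact finrank_cuspidalHoms_le N ℂ

theorem finrank_parabolicHoms_complex_eq (N : ℕ) [NeZero N] :
    (Module.finrank ℂ (parabolicHoms ℂ (Gamma0 N) ℂ) : ℚ) = 2 * genusFormula N := by
  rw [parabolicHoms_eq_cuspidalHoms]
  exact finrank_cuspidalHoms_eq N ℂ

end Fermat.Agent.Periods
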