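import Fermat.Agent.Periods.EichlerIntegral
import Mathlib.NumberTheory.Modular
import Mathlib.Analysis.Complex.AbsMax
import Mathlib.Analysis.Calculus.Deriv.Star

/-!
# Team PER (helper48): injectivity of the period pair map
-/

set_option autoImplicit false

noncomputable section

namespace Fermat.Agent.Periods

open UpperHalfPlane hiding I
open Complex Filter Function CongruenceSubgroup ModularCurve ModularCurve.Period
open scoped Real MatrixGroups Topology Manifold ModularForm ComplexConjugate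

/-- Reflection in the imaginary axis. -/
def reflect (τ : ℍ) : ℍ := ⟨-conj (τ : ℂ), by simpa using τ.im_pos⟩

@[simp]
theorem coe_reflect (τ : ℍ) : (reflect τ : ℂ) = -conj (τ : ℂ) := rfl

theorem reflect_reflect (τ : ℍ) : reflect (reflect τ) = τ := by ext; simp

theorem reflect_smul (δ : SL(2, ℤ)) (τ : ℍ) :
    reflect (δ • τ) = jConjSL δ • reflect τ := by
  ext
  simp only [coe_reflect, coe_specialLinearGroup_apply, jConjSL_coe, jConjMat_apply_zero_zero,
    jConjMat_apply_zero_one, jConjMat_apply_one_zero, jConjMat_apply_one_one]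
  simp only [map_div₀, map_add, map_mul, map_intCast, Int.cast_neg, algebraMap_int_eq,
    Int.coe_castRingHom, Complex.ofReal_intCast]
  push_cast
  rw [← neg_div]
  congr 1 <;> ring

theorem HasCuspDiscs.reflect {h : ℝ} {F : ℍ → ℂ} (hF : HasCuspDiscs h F) :
    HasCuspDiscs h (fun τ ↦ -conj (F (Periods.reflect τ))) := by
  intro δ
  obtain ⟨Φ, hΦ, hΦe⟩ := hF (jConjSL δ)
  refine ⟨fun q ↦ -conj (Φ (conj q)), ?_, fun w ↦ ?_⟩
  · intro q hq
    have hq' : conj q ∈ Metric.ball (0 : ℂ) 1 := by simpa using hq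
    have := (hΦ.differentiableAt (Metric.isOpen_ball.mem_nhds hq')).conj_conj
    simp only [Complex.conj_conj] at this
    exact this.neg.differentiableWithinAt
  · simp only [reflect_smul, hΦe]
    congr 3
    simp only [Periodic.qParam, ← Complex.exp_conj, coe_reflect]
    congr 1
    simp [map_ofNat]

theorem exists_finset_cover (N : ℕ) [NeZero N] : ∃ S : Finset SL(2, ℤ), S.Nonempty ∧
    ∀ τ : ℍ, ∃ γ ∈ Gamma0 N, ∃ δ ∈ S, ∃ w : ℍ, 1 / 2 ≤ w.im ∧ τ = γ • δ • w := by
  classical
  have : Fintype (SL(2, ℤ) ⧸ Gamma0 N) := Fintype.ofFinite _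
  refine ⟨Finset.univ.image fun c : SL(2, ℤ) ⧸ Gamma0 N ↦ (Quotient.out c)⁻¹,
    Finset.univ_nonempty.image _, fun τ ↦ ?_⟩
  obtain ⟨g, hg⟩ := ModularGroup.exists_one_half_le_im_smul τ
  obtain ⟨u, hu⟩ := QuotientGroup.mk_out_eq_mul (Gamma0 N) g
  refine ⟨u, u.2, (g * u)⁻¹, Finset.mem_image.mpr ⟨_, Finset.mem_univ _, by rw [hu]⟩,
    g • τ, hg, ?_⟩
  simp [← mul_smul, mul_assoc]

theorem norm_qParam_le_of_half_le {h : ℝ} (hh : 0 < h) {w : ℍ} (hw : 1 / 2 ≤ w.im) :
    ‖Periodic.qParam h w‖ ≤ Real.exp (-π / h) := by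
  rw [Periodic.norm_qParam, Real.exp_le_exp, div_le_div_iff_of_pos_right hh]
  have := Real.pi_pos
  rw [UpperHalfPlane.coe_im]
  nlinarith

/-- A holomorphic function with invariant real part which extends to all cusps is constant. -/
theorem eq_zero_of_re_invariant {N : ℕ} [NeZero N] {φ H : ℍ → ℂ} (hH : IsPrimitive φ H)
    (hdisc : HasCuspDiscs N H)
    (hinv : ∀ γ : SL(2, ℤ), γ ∈ Gamma0 N → ∀ z : ℍ, (H (γ • z)).re = (H z).re) : φ = 0 := by
  set h : ℝ := (N : ℝ)
  have hh : 0 < h := Nat.cast_pos.mpr (NeZero.pos N)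
  choose Φ hΦ hΦe using hdisc
  obtain ⟨S, hS, hcover⟩ := exists_finset_cover N
  set r : ℝ := Real.exp (-π / h)
  have hr1 : r < 1 := Real.exp_lt_one_iff.mpr (div_neg_of_neg_of_pos (by simp [Real.pi_pos]) hh)
  have hr0 : 0 ≤ r := (Real.exp_pos _).le
  have hK : IsCompact (Metric.closedBall (0 : ℂ) r) := isCompact_closedBall 0 r
  have hKsub : Metric.closedBall (0 : ℂ) r ⊆ Metric.ball 0 1 :=
    Metric.closedBall_subset_ball hr1
  have hmax : ∀ δ : SL(2, ℤ), ∃ q ∈ Metric.closedBall (0 : ℂ) r,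
      IsMaxOn (fun q ↦ (Φ δ q).re) (Metric.closedBall 0 r) q := fun δ ↦
    hK.exists_isMaxOn (Metric.nonempty_closedBall.mpr hr0)
      (Complex.continuous_re.comp_continuousOn ((hΦ δ).continuousOn.mono hKsub))
  choose qm hqm hqmax using hmax
  obtain ⟨δ₀, hδ₀, hδmax⟩ := S.exists_max_image (fun δ ↦ (Φ δ (qm δ)).re) hS
  have hle : ∀ τ : ℍ, (H τ).re ≤ (Φ δ₀ (qm δ₀)).re := by
    intro τ
    obtain ⟨γ, hγ, δ, hδ, w, hw, rfl⟩ := hcover τ
    rw [hinv γ hγ, hΦe]
    refine (hqmax δ ?_).trans (hδmax δ hδ)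
    simpa using norm_qParam_le_of_half_le hh hw
  have hball : ∀ q ∈ Metric.ball (0 : ℂ) 1, (Φ δ₀ q).re ≤ (Φ δ₀ (qm δ₀)).re := by
    intro q hq
    rcases eq_or_ne q 0 with rfl | hq0
    · exact hqmax δ₀ (Metric.mem_closedBall_self hr0)
    · have him := Periodic.im_invQParam_pos_of_norm_lt_one hh (by simpa using hq) hq0
      have := hle (δ₀ • ⟨_, him⟩)
      rwa [hΦe, show ((⟨_, him⟩ : ℍ) : ℂ) = Periodic.invQParam h q from rfl,
        Periodic.qParam_right_inv hh.ne' hq0] at this
  have hconst : Set.EqOn (fun q ↦ cexp (Φ δ₀ q)) (fun _ ↦ cexp (Φ δ₀ (qm δ₀)))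
      (Metric.ball 0 1) := by
    refine Complex.eqOn_of_isPreconnected_of_isMaxOn_norm (convex_ball 0 1).isPreconnected
      Metric.isOpen_ball (hΦ δ₀).cexp (hKsub (hqm δ₀)) fun q hq ↦ ?_
    simpa [Complex.norm_exp] using hball q hq
  have hzero : ∀ w : ℍ, (φ ∣[(2 : ℤ)] δ₀) w = 0 := by
    intro w
    have h1 := (hH.comp_SL_smul δ₀ w).cexp
    have h2 : HasDerivAt (fun x ↦ cexp (((fun τ ↦ H (δ₀ • τ)) ∘ ofComplex) x)) 0 (w : ℂ) := by
      refine (hasDerivAt_const (w : ℂ) (cexp (Φ δ₀ (qm δ₀)))).congr_of_eventuallyEq ?_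
      filter_upwards [isOpen_upperHalfPlaneSet.mem_nhds w.im_pos] with z hz
      simp only [Function.comp_apply, ofComplex_apply_of_im_pos hz, hΦe]
      exact hconst (by simpa using Periodic.norm_qParam_lt_one hh (show 0 < z.im from hz))
    simpa [Complex.exp_ne_zero] using h1.unique h2
  exact (SlashAction.slash_eq_zero_iff (2 : ℤ) δ₀ φ).mp (funext hzero)

theorem IsPrimitive.reflect {φ F : ℍ → ℂ} (hF : IsPrimitive φ F) :
    IsPrimitive (fun τ ↦ conj (φ (Periods.reflect τ))) (fun τ ↦ -conj (F (Periods.reflect τ))) := by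
  intro τ
  have h1 := hF (Periods.reflect τ)
  have h2 : HasDerivAt (fun z ↦ (F ∘ ofComplex) (-z)) (-(φ (Periods.reflect τ))) (conj (τ : ℂ)) := by
    have := HasDerivAt.comp (h := fun z : ℂ ↦ -z) (h₂ := F ∘ ofComplex) (conj (τ : ℂ))
      (by simpa using h1) (hasDerivAt_neg _)
    simpa [Function.comp_def] using this
  have h3 := h2.conj_conj.neg
  simp only [Complex.conj_conj, map_neg, neg_neg] at h3
  refine h3.congr_of_eventuallyEq ?_
  filter_upwards [isOpen_upperHalfPlaneSet.mem_nhds τ.im_pos] with z hz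
  simp only [Function.comp_apply, ofComplex_apply_of_im_pos hz, Pi.neg_apply]
  congr 3
  rw [ofComplex_apply_of_im_pos (by simpa using hz)]
  rfl

/-- The two periods pairing `Pu = -ι(Pv)` forces both forms to vanish. -/
theorem eq_zero_of_periodMap_add_charInvolution {N : ℕ} [NeZero N]
    (u v : CuspForm (Gamma0 N) 2)
    (h : periodMap N u + charInvolution N ℂ ℂ (periodMap N v) = 0) : u = 0 ∧ v = 0 := by
  obtain ⟨F, hF⟩ := exists_hasEquivariantPrimitive u
  obtain ⟨G, hG⟩ := exists_hasEquivariantPrimitive v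
  have hG' : IsPrimitive _ (fun τ ↦ -conj (G (Periods.reflect τ))) := IsPrimitive.reflect hG.1
  have hdF := hasCuspDiscs_primitive u hF.1
  have hdG := (hasCuspDiscs_primitive v hG.1).reflect
  have key : ∀ γ : SL(2, ℤ), γ ∈ Gamma0 N → ∀ z : ℍ,
      (F (γ • z) - F z) + (G (reflect (γ • z)) - G (reflect z)) = 0 := by
    intro γ hγ z
    have h0 := DFunLike.congr_fun h (Additive.ofMul ⟨γ, hγ⟩)
    simp only [AddMonoidHom.add_apply, AddMonoidHom.zero_apply, charInvolution_apply,
      toMul_ofMul] at h0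
    rw [periodMap_apply u hF.1 _ z, periodMap_apply v hG.1 _ (reflect z), jConjGamma0_coe,
      ← reflect_smul] at h0
    exact h0
  have h1 := eq_zero_of_re_invariant (IsPrimitive.add hF.1 (hG'.const_smul (-1)))
    (hdF.add (hdG.const_smul (-1))) fun γ hγ z ↦ by
      have := congrArg Complex.re (key γ hγ z)
      simp only [Complex.add_re, Complex.sub_re, Complex.zero_re] at this
      simp only [Pi.add_apply, Pi.smul_apply, smul_eq_mul, neg_one_mul, neg_neg, Complex.add_re,
        Complex.conj_re]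
      linarith
  have h2 := eq_zero_of_re_invariant ((IsPrimitive.add hF.1 hG').const_smul Complex.I)
    ((hdF.add hdG).const_smul Complex.I) fun γ hγ z ↦ by
      have := congrArg Complex.im (key γ hγ z)
      simp only [Complex.add_im, Complex.sub_im, Complex.zero_im] at this
      simp only [Pi.add_apply, Pi.smul_apply, smul_eq_mul, Complex.I_mul_re, Complex.add_im,
        Complex.neg_im, Complex.conj_im, neg_neg]
      linarith
  have e : ∀ τ : ℍ, u τ = 0 ∧ v (reflect τ) = 0 := by
    intro τ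
    have a1 := congrFun h1 τ
    have a2 := congrFun h2 τ
    simp only [Pi.add_apply, Pi.smul_apply, smul_eq_mul, Pi.zero_apply, mul_eq_zero,
      Complex.I_ne_zero, false_or] at a1 a2
    have hu : u τ = 0 := by linear_combination (a1 + a2) / 2
    exact ⟨hu, by simpa [hu] using a2⟩
  exact ⟨CuspForm.ext fun τ ↦ by simpa using (e τ).1,
    CuspForm.ext fun τ ↦ by simpa [reflect_reflect] using (e (reflect τ)).2⟩

/-- The function `τ ↦ conj (φ (-conj τ))` behaves well under the slash action. -/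
theorem slash_conjReflect (φ : ℍ → ℂ) (δ : SL(2, ℤ)) :
    (fun τ ↦ conj (φ (reflect τ))) ∣[(2 : ℤ)] δ
      = fun τ ↦ conj ((φ ∣[(2 : ℤ)] jConjSL δ) (reflect τ)) := by
  funext τ
  have hd : conj (denom (δ : SL(2, ℤ)) (τ : ℂ))
      = denom (jConjSL δ : SL(2, ℤ)) (reflect τ : ℂ) := by
    rw [ModularGroup.denom_apply, ModularGroup.denom_apply, jConjSL_coe, jConjMat_apply_one_zero,
      jConjMat_apply_one_one, coe_reflect]
    simp
  rw [ModularForm.SL_slash_apply, ModularForm.SL_slash_apply, reflect_smul, map_mul, map_zpow₀,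
    ← hd, Complex.conj_conj]

theorem tendsto_reflect_atImInfty : Tendsto reflect atImInfty atImInfty := by
  simp only [atImInfty, tendsto_comap_iff, Function.comp_def]
  refine tendsto_comap.congr fun τ ↦ ?_
  rw [← UpperHalfPlane.coe_im, ← UpperHalfPlane.coe_im, coe_reflect]
  simp

/-- The cusp form with complex conjugated `q`-expansion. -/
def conjForm {N : ℕ} [NeZero N] (f : CuspForm (Gamma0 N) 2) : CuspForm (Gamma0 N) 2 where
  toFun τ := conj (f (reflect τ))
  slash_action_eq' γ hγ := by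
    obtain ⟨g, hg, rfl⟩ := hγ
    have h := slash_conjReflect (f : ℍ → ℂ) g
    rw [slash_eq_self f (jConjSL_mem_Gamma0 hg)] at h
    exact h
  holo' τ := by
    refine mdifferentiableAt_iff.mpr ?_
    have h1 : DifferentiableAt ℂ ((f : ℍ → ℂ) ∘ ofComplex) (reflect τ : ℂ) :=
      mdifferentiableAt_iff.mp (CuspFormClass.holo f _)
    have h2 : DifferentiableAt ℂ (fun z ↦ ((f : ℍ → ℂ) ∘ ofComplex) (-z)) (conj (τ : ℂ)) :=
      DifferentiableAt.comp (f := fun z : ℂ ↦ -z) (g := (f : ℍ → ℂ) ∘ ofComplex) _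
        (by simpa using h1) (differentiableAt_id.neg)
    have h3 := h2.conj_conj
    simp only [Complex.conj_conj] at h3
    refine h3.congr_of_eventuallyEq ?_
    filter_upwards [isOpen_upperHalfPlaneSet.mem_nhds τ.im_pos] with z hz
    simp only [Function.comp_apply, ofComplex_apply_of_im_pos hz]
    refine congrArg (fun w ↦ conj (f w)) ?_
    rw [ofComplex_apply_of_im_pos (by simpa using hz)]
    rfl
  zero_at_cusps' hc := by
    rw [Subgroup.IsArithmetic.isCusp_iff_isCusp_SL2Z] at hc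
    refine (OnePoint.isZeroAt_iff_forall_SL2Z hc).mpr fun γ _ ↦ ?_
    have h := slash_conjReflect (f : ℍ → ℂ) γ
    refine Eq.mpr (congrArg IsZeroAtImInfty h) ?_
    have h0 : Tendsto ((f : ℍ → ℂ) ∣[(2 : ℤ)] jConjSL γ) atImInfty (𝓝 0) :=
      CuspFormClass.zero_at_infty_slash f _
    have h1 := (Complex.continuous_conj.tendsto 0).comp (h0.comp tendsto_reflect_atImInfty)
    rw [map_zero] at h1
    exact h1

theorem conjForm_apply {N : ℕ} [NeZero N] (f : CuspForm (Gamma0 N) 2) (τ : ℍ) :
    conjForm f τ = conj (f (reflect τ)) := rfl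

theorem charInvolution_periodMap {N : ℕ} [NeZero N] (f : CuspForm (Gamma0 N) 2) (γ : Gamma0 N) :
    charInvolution N ℂ ℂ (periodMap N f) (Additive.ofMul γ) =
      -conj (periodMap N (conjForm f) (Additive.ofMul γ)) := by
  obtain ⟨F, hF⟩ := exists_hasEquivariantPrimitive f
  have hF' : IsPrimitive (conjForm f) (fun τ ↦ -conj (F (reflect τ))) := IsPrimitive.reflect hF.1
  rw [charInvolution_apply, toMul_ofMul, periodMap_apply f hF.1 _ (reflect UpperHalfPlane.I),
    periodMap_apply _ hF' γ UpperHalfPlane.I, jConjGamma0_coe, ← reflect_smul]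
  simp only [map_sub, map_neg, Complex.conj_conj]
  ring

theorem exists_conjForm {N : ℕ} [NeZero N] (f : CuspForm (Gamma0 N) 2) :
    ∃ g : CuspForm (Gamma0 N) 2, ∀ γ : Gamma0 N,
      charInvolution N ℂ ℂ (periodMap N f) (Additive.ofMul γ) =
        -conj (periodMap N g (Additive.ofMul γ)) :=
  ⟨conjForm f, charInvolution_periodMap f⟩

/-- If the periods of `f` and the conjugates of the periods of `g` cancel, both forms vanish. -/
theorem eq_zero_of_periodMap_add_conj_eq_zero {N : ℕ} [NeZero N] {f g : CuspForm (Gamma0 N) 2}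
    (h : ∀ γ : Gamma0 N,
      periodMap N f (Additive.ofMul γ) + conj (periodMap N g (Additive.ofMul γ)) = 0) :
    f = 0 ∧ g = 0 := by
  have h' : periodMap N f + charInvolution N ℂ ℂ (periodMap N (-conjForm g)) = 0 := by
    refine AddMonoidHom.ext fun x ↦ ?_
    rw [← ofMul_toMul x]
    have h1 := charInvolution_periodMap g (jConjGamma0 N (Additive.toMul x))
    rw [charInvolution_apply, toMul_ofMul, jConjGamma0_jConjGamma0] at h1
    have h2 := h (Additive.toMul x)
    rw [h1, map_neg, Complex.conj_conj] at h2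
    simpa [← periodLin_apply] using h2
  obtain ⟨hf, hg⟩ := eq_zero_of_periodMap_add_charInvolution f _ h'
  refine ⟨hf, CuspForm.ext fun τ ↦ ?_⟩
  simpa [conjForm_apply, reflect_reflect] using DFunLike.congr_fun hg (reflect τ)

theorem periodMap_injective (N : ℕ) [NeZero N] :
    Function.Injective (periodMap N) := by
  intro f g h
  refine sub_eq_zero.mp (eq_zero_of_periodMap_add_charInvolution (f - g) 0 ?_).1
  rw [← periodLin_apply, ← periodLin_apply, map_sub, map_zero, periodLin_apply, periodLin_apply, h]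
  simp

theorem periodHomPair_injective (N : ℕ) [NeZero N] :
    Function.Injective (periodHomPair N) := by
  rw [injective_iff_map_eq_zero]
  rintro ⟨f, g⟩ h
  obtain ⟨hu, hv⟩ := eq_zero_of_periodMap_add_charInvolution (f + g) (f - g) (by
    rw [periodHomPair_apply] at h
    rw [← periodLin_apply, ← periodLin_apply, map_add, map_sub, map_sub, periodLin_apply,
      periodLin_apply, ← h]
    abel)
  have hfz : (2 : ℂ) • f = 0 := by rw [two_smul, show f + f = (f + g) + (f - g) by abel, hu, hv, add_zero]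
  have hf : f = 0 := (smul_eq_zero.mp hfz).resolve_left two_ne_zero
  simp only [hf, zero_add] at hu
  simp [hf, hu]

end Fermat.Agent.Periods
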