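import Fermat.Agent.Modular.GenusBound
import Fermat.Agent.Periods.Injective
import Fermat.Agent.Periods.Group

/-!
Team PER (helper47): dimension of `S₂(Γ₀(N))` and the Eichler–Shimura isomorphism.
-/

set_option autoImplicit false

open CongruenceSubgroup ModularCurve ModularCurve.Period
open scoped MatrixGroups

namespace Fermat.Agent.Periods

variable (N : ℕ) [NeZero N]

theorem finite_cuspForm_two : Module.Finite ℂ (CuspForm (Gamma0 N) 2) := by
  obtain ⟨pml, hpml⟩ := existsPeriodMapLinear N
  haveI := finite_parabolicHoms_complex N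
  let φ : CuspForm (Gamma0 N) 2 →ₗ[ℂ] parabolicHoms ℂ (Gamma0 N) ℂ :=
    pml.codRestrict _ fun f => by rw [hpml f]; exact periodMap_mem_parabolicHoms f
  refine Module.Finite.of_injective φ fun f g h => periodMap_injective N ?_
  rw [← hpml f, ← hpml g]
  exact congrArg Subtype.val h

theorem two_mul_finrank_le :
    2 * Module.finrank ℂ (CuspForm (Gamma0 N) 2) ≤
      Module.finrank ℂ (parabolicHoms ℂ (Gamma0 N) ℂ) := by
  haveI := finite_parabolicHoms_complex N
  haveI := finite_cuspForm_two N
  have h := LinearMap.finrank_range_of_inj (periodHomPair_injective N)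
  rw [Module.finrank_prod] at h
  have := Submodule.finrank_mono (range_periodHomPair_le (N := N))
  omega

/-- Lower bound, supplied by team MOD. -/
theorem genusFormula_le_finrank :
    genusFormula N ≤ (Module.finrank ℂ (CuspForm (Gamma0 N) 2) : ℚ) := by
  haveI := finite_cuspForm_two N
  exact Fermat.Agent.Modular.genusFormula_le_finrank_cuspForm N

theorem finrank_cuspForm_eq_genusFormula :
    (Module.finrank ℂ (CuspForm (Gamma0 N) 2) : ℚ) = genusFormula N := by
  have h1 : (2 * Module.finrank ℂ (CuspForm (Gamma0 N) 2) : ℚ) ≤
      (Module.finrank ℂ (parabolicHoms ℂ (Gamma0 N) ℂ) : ℚ) := by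
    exact_mod_cast two_mul_finrank_le N
  linarith [finrank_parabolicHoms_complex_le N, genusFormula_le_finrank N]

theorem finrank_parabolicHoms_eq :
    Module.finrank ℂ (parabolicHoms ℂ (Gamma0 N) ℂ) =
      2 * Module.finrank ℂ (CuspForm (Gamma0 N) 2) := by
  refine le_antisymm ?_ (two_mul_finrank_le N)
  have h := finrank_parabolicHoms_complex_le N
  rw [← finrank_cuspForm_eq_genusFormula N] at h
  exact_mod_cast h

theorem range_periodHomPair :
    LinearMap.range (periodHomPair N) = parabolicHoms ℂ (Gamma0 N) ℂ := by
  haveI := finite_parabolicHoms_complex N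
  haveI := finite_cuspForm_two N
  refine Submodule.eq_of_le_of_finrank_le (range_periodHomPair_le (N := N)) ?_
  rw [LinearMap.finrank_range_of_inj (periodHomPair_injective N), Module.finrank_prod,
    finrank_parabolicHoms_eq]
  omega

theorem periodHomPair_eichlerShimura :
    Function.Injective (periodHomPair N) ∧
      LinearMap.range (periodHomPair N) = parabolicHoms ℂ (Gamma0 N) ℂ :=
  ⟨periodHomPair_injective N, range_periodHomPair N⟩

end Fermat.Agent.Periods
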