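/- Integral structure on S₂(Γ₀(N)) from a Hecke-stable lattice in S₂ × S₂. Owner: helper52. -/
import Fermat.Agent.Periods.HeckeCoeff
import Fermat.Prelude.Def_CuspForm_IntegralStructure
import Mathlib.LinearAlgebra.LinearIndependent.BaseChange
import Mathlib.LinearAlgebra.FreeModule.PID
import Mathlib.LinearAlgebra.Matrix.ToLin
import Mathlib.RingTheory.Noetherian.Basic

set_option autoImplicit false

noncomputable section

open ModularFormClass CongruenceSubgroup Module

namespace Fermat.Agent.Periods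

set_option linter.unusedSectionVars false

variable (N : ℕ) [NeZero N]

local notation "S₂" => CuspForm (CongruenceSubgroup.Gamma0 N) 2
local notation "𝕋" => CuspForm.heckeAlgebra N 2 ∅

/-- There is a basis of `S₂ × S₂` whose `ℤ`-span is stable under every Hecke generator
(acting diagonally). -/
def HasHeckeLattice : Prop :=
  ∃ (r : ℕ) (b : Basis (Fin r) ℂ (S₂ × S₂)),
    ∀ T ∈ CuspForm.heckeGenerators N 2 ∅, ∀ i j,
      ∃ m : ℤ, b.repr (T.prodMap T (b i)) j = (m : ℂ)

variable {N}

/-- The matrix of `t × t` in a basis of `S₂ × S₂`. -/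
def prodMatrix {r : ℕ} (b : Basis (Fin r) ℂ (S₂ × S₂)) :
    Module.End ℂ S₂ →ₗ[ℂ] Matrix (Fin r) (Fin r) ℂ where
  toFun t := LinearMap.toMatrixAlgEquiv b (t.prodMap t)
  map_add' t u := by rw [← map_add]; congr 1
  map_smul' c t := by rw [RingHom.id_apply, ← map_smul]; congr 1

/-- `prodMatrix` as a ring homomorphism. -/
def prodMatrixRingHom {r : ℕ} (b : Basis (Fin r) ℂ (S₂ × S₂)) :
    Module.End ℂ S₂ →+* Matrix (Fin r) (Fin r) ℂ where
  toFun t := prodMatrix b t
  map_one' := by
    show LinearMap.toMatrixAlgEquiv b _ = 1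
    rw [← map_one (LinearMap.toMatrixAlgEquiv b)]; congr 1
  map_mul' t u := by
    show LinearMap.toMatrixAlgEquiv b _ = _ * _
    rw [show (prodMatrix b t) = LinearMap.toMatrixAlgEquiv b (t.prodMap t) from rfl,
      show (prodMatrix b u) = LinearMap.toMatrixAlgEquiv b (u.prodMap u) from rfl, ← map_mul]
    congr 1
  map_zero' := map_zero _
  map_add' := map_add _

theorem prodMatrix_injective {r : ℕ} (b : Basis (Fin r) ℂ (S₂ × S₂)) :
    Function.Injective (prodMatrix b) := by
  intro t u h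
  refine LinearMap.ext fun f => ?_
  have := LinearMap.congr_fun ((LinearMap.toMatrixAlgEquiv b).injective h) (f, 0)
  exact congrArg Prod.fst this

variable (N) in
/-- The conclusion drawn from a Hecke-stable lattice: `𝕋` is finite free over `ℤ` and a
`ℤ`-basis of it stays independent over `ℂ`. -/
theorem exists_basis_heckeAlgebra (h : HasHeckeLattice N) :
    ∃ (d : ℕ) (t : Basis (Fin d) ℤ 𝕋),
      LinearIndependent ℂ (fun i => ((t i : 𝕋) : Module.End ℂ S₂)) := by
  obtain ⟨r, b, hb⟩ := h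
  let g : Matrix (Fin r) (Fin r) ℤ →+* Matrix (Fin r) (Fin r) ℂ := (Int.castRingHom ℂ).mapMatrix
  have hg : Function.Injective g := fun A B hAB => by
    ext i j
    have := congrFun (congrFun hAB i) j
    simpa [g] using this
  have hle : 𝕋 ≤ Subalgebra.comap (prodMatrixRingHom b).toIntAlgHom g.toIntAlgHom.range := by
    refine Algebra.adjoin_le fun T hT => ?_
    choose m hm using hb T hT
    refine ⟨Matrix.of fun j i => m i j, ?_⟩
    refine Matrix.ext fun j i => ?_
    show (m i j : ℂ) = LinearMap.toMatrixAlgEquiv b (T.prodMap T) j i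
    rw [LinearMap.toMatrixAlgEquiv_apply]
    exact (hm i j).symm
  have hex : ∀ t : 𝕋, ∃ A, g A = prodMatrix b (t : Module.End ℂ S₂) := fun t => hle t.2
  choose A hA using hex
  have hinj : Function.Injective A := fun t u htu =>
    Subtype.ext (prodMatrix_injective b (by rw [← hA t, ← hA u, htu]))
  let ψ : 𝕋 →ₗ[ℤ] Matrix (Fin r) (Fin r) ℤ :=
    AddMonoidHom.toIntLinearMap (AddMonoidHom.mk' A fun t u => hg (by
      rw [map_add, hA, hA, hA, Subalgebra.coe_add, map_add]))
  have hψ : Function.Injective ψ := hinj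
  have : Module.Finite ℤ 𝕋 := Module.Finite.of_injective ψ hψ
  have : Module.IsTorsionFree ℤ 𝕋 :=
    Function.Injective.moduleIsTorsionFree ψ hψ (fun m x => map_smul ψ m x)
  have : Module.Free ℤ 𝕋 := Module.free_of_finite_type_torsion_free'
  refine ⟨_, Module.finBasis ℤ 𝕋, ?_⟩
  set t := Module.finBasis ℤ 𝕋
  let v : Fin (finrank ℤ 𝕋) → (Fin r × Fin r) → ℤ := fun i x => ψ (t i) x.1 x.2
  have hv : LinearIndependent ℤ v := by
    let e : Matrix (Fin r) (Fin r) ℤ →ₗ[ℤ] ((Fin r × Fin r) → ℤ) :=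
      { toFun := fun M x => M x.1 x.2, map_add' := fun _ _ => rfl, map_smul' := fun _ _ => rfl }
    have he : Function.Injective e := fun M M' hM => by
      ext i j; exact congrFun hM (i, j)
    exact (t.linearIndependent.map' ψ (LinearMap.ker_eq_bot.mpr hψ)).map' e
      (LinearMap.ker_eq_bot.mpr he)
  have hvC : LinearIndependent ℂ (fun i => algebraMap ℤ ℂ ∘ v i) :=
    linearIndependent_algebraMap_comp_iff.mpr hv
  let e' : Module.End ℂ S₂ →ₗ[ℂ] ((Fin r × Fin r) → ℂ) :=
    { toFun := fun u x => prodMatrix b u x.1 x.2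
      map_add' := fun u w => by ext x; simp
      map_smul' := fun c u => by ext x; simp }
  refine LinearIndependent.of_comp e' ?_
  convert hvC using 1
  funext i x
  show prodMatrix b ((t i : 𝕋) : Module.End ℂ S₂) x.1 x.2 = ((ψ (t i) x.1 x.2 : ℤ) : ℂ)
  rw [← hA]
  rfl

variable (N) in
/-- Duality `(t, f) ↦ a₁(t f)`: a family of cusp forms dual to a `ℤ`-basis of `𝕋`. -/
theorem exists_dual_forms (h : HasHeckeLattice N) :
    ∃ (d : ℕ) (t : Basis (Fin d) ℤ 𝕋) (f : Basis (Fin d) ℂ S₂),
      ∀ i j, qCoeff (⇑(((t j : 𝕋) : Module.End ℂ S₂) (f i))) 1 = if i = j then 1 else 0 := by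
  classical
  obtain ⟨d, t, ht⟩ := exists_basis_heckeAlgebra N h
  let Φ : S₂ →ₗ[ℂ] (Fin d → ℂ) :=
    LinearMap.pi fun i => qCoeffLin N 1 ∘ₗ ((t i : 𝕋) : Module.End ℂ S₂)
  have hlin : ∀ (u : 𝕋) (f : S₂), qCoeffLin N 1 ((u : Module.End ℂ S₂) f)
      = ∑ i, (t.repr u i : ℂ) * Φ f i := by
    intro u f
    conv_lhs => rw [← t.sum_repr u]
    simp only [AddSubmonoidClass.coe_finsetSum, LinearMap.coe_sum, Finset.sum_apply, map_sum]
    refine Finset.sum_congr rfl fun i _ => ?_
    rw [Subalgebra.coe_smul, LinearMap.smul_apply, ← Int.cast_smul_eq_zsmul ℂ, map_smul, smul_eq_mul]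
    rfl
  have hinj : Function.Injective Φ := by
    rw [← LinearMap.ker_eq_bot, LinearMap.ker_eq_bot']
    intro f hf
    refine eq_zero_of_forall_qCoeff_one fun u hu => ?_
    rw [← qCoeffLin_apply, show u = ((⟨u, hu⟩ : 𝕋) : Module.End ℂ S₂) from rfl, hlin, hf]
    simp
  have hsurj : Function.Surjective Φ := by
    rw [← LinearMap.dualMap_injective_iff, ← LinearMap.ker_eq_bot, LinearMap.ker_eq_bot']
    intro φ hφ
    let c : Fin d → ℂ := fun i => φ (Pi.single i 1)
    have hφc : ∀ x, φ x = ∑ i, c i * x i := fun x => by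
      conv_lhs => rw [pi_eq_sum_univ' x]
      simp [map_sum, map_smul, c, mul_comm]
    let u : Module.End ℂ S₂ := ∑ i, c i • ((t i : 𝕋) : Module.End ℂ S₂)
    have hu1 : ∀ f, qCoeffLin N 1 (u f) = 0 := fun f => by
      have := LinearMap.congr_fun hφ f
      rw [LinearMap.dualMap_apply, hφc] at this
      simpa [u, Φ, map_sum] using this
    have hu : u = 0 := LinearMap.ext fun f => eq_zero_of_forall_qCoeff_one fun w hw => by
      have hcomm : w * u = u * w := by
        simp only [u, Finset.mul_sum, Finset.sum_mul, mul_smul_comm, smul_mul_assoc]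
        refine Finset.sum_congr rfl fun i _ => ?_
        congr 1
        exact congrArg Subtype.val (mul_comm' (⟨w, hw⟩ : 𝕋) (t i))
      have := hu1 (w f)
      rw [← Module.End.mul_apply, ← hcomm] at this
      exact this
    have hc := Fintype.linearIndependent_iff.mp ht c hu
    refine LinearMap.ext fun x => ?_
    simp [hφc, hc]
  let e : S₂ ≃ₗ[ℂ] (Fin d → ℂ) := LinearEquiv.ofBijective Φ ⟨hinj, hsurj⟩
  refine ⟨d, t, (Pi.basisFun ℂ (Fin d)).map e.symm, fun i j => ?_⟩
  have : Φ (((Pi.basisFun ℂ (Fin d)).map e.symm) i) j = (Pi.basisFun ℂ (Fin d) i) j := by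
    rw [Basis.map_apply]
    exact congrFun (e.apply_symm_apply _) j
  rw [Pi.basisFun_apply] at this
  simpa [Φ, Pi.single_apply, eq_comm] using this

variable (N) in
/-- A Hecke-stable lattice gives the integral structure on weight two forms. -/
theorem hasIntegralStructure_of_lattice (h : HasHeckeLattice N) :
    CuspForm.HasIntegralStructure N 2 := by
  obtain ⟨d, t, f, hf⟩ := exists_dual_forms N h
  rw [CuspForm.HasIntegralStructure, eq_top_iff, ← f.span_eq]
  refine Submodule.span_mono ?_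
  rintro _ ⟨i, rfl⟩
  refine Submodule.subset_span fun n => ?_
  obtain ⟨u, hu, huf⟩ := exists_coeffOp N n
  refine ⟨t.repr ⟨u, hu⟩ i, ?_⟩
  rw [huf, ← qCoeffLin_apply]
  change qCoeffLin N 1 (((⟨u, hu⟩ : 𝕋) : Module.End ℂ S₂) (f i)) = _
  conv_lhs => rw [← t.sum_repr ⟨u, hu⟩]
  simp only [AddSubmonoidClass.coe_finsetSum, LinearMap.coe_sum, Finset.sum_apply, map_sum]
  rw [Finset.sum_eq_single i]
  · rw [Subalgebra.coe_smul, LinearMap.smul_apply, ← Int.cast_smul_eq_zsmul ℂ, map_smul,
      qCoeffLin_apply, hf, if_pos rfl, smul_eq_mul, mul_one]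
  · intro j _ hj
    rw [Subalgebra.coe_smul, LinearMap.smul_apply, ← Int.cast_smul_eq_zsmul ℂ, map_smul,
      qCoeffLin_apply, hf, if_neg (Ne.symm hj), smul_zero]
  · simp

variable (N) in
theorem finiteDimensional_of_lattice (h : HasHeckeLattice N) : FiniteDimensional ℂ S₂ := by
  obtain ⟨d, t, f, -⟩ := exists_dual_forms N h
  exact Module.Finite.of_basis f

variable (N) in
theorem moduleFinite_heckeAlgebra_of_lattice (h : HasHeckeLattice N) : Module.Finite ℤ 𝕋 := by
  obtain ⟨d, t, -⟩ := exists_basis_heckeAlgebra N h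
  exact Module.Finite.of_basis t

variable (N) in
theorem finrank_heckeAlgebra_of_lattice (h : HasHeckeLattice N) :
    finrank ℤ 𝕋 = finrank ℂ S₂ := by
  obtain ⟨d, t, f, -⟩ := exists_dual_forms N h
  rw [Module.finrank_eq_card_basis t, Module.finrank_eq_card_basis f]

variable (N) in
/-- Every ring homomorphism `𝕋 → ℂ` is the eigen-system of a normalised eigenform. -/
theorem exists_eigenform_of_ringHom (h : HasHeckeLattice N) (χ : 𝕋 →+* ℂ) :
    ∃ g : S₂, g.IsNormalizedEigenform ∧ ∀ u : 𝕋, (u : Module.End ℂ S₂) g = χ u • g := by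
  classical
  obtain ⟨d, t, f, hf⟩ := exists_dual_forms N h
  let g : S₂ := ∑ i, χ (t i) • f i
  have ha : ∀ u : 𝕋, qCoeff (⇑((u : Module.End ℂ S₂) g)) 1 = χ u := by
    intro u
    have hj : ∀ j, qCoeffLin N 1 (((t j : 𝕋) : Module.End ℂ S₂) g) = χ (t j) := fun j => by
      simp [g, map_sum, hf, mul_comm]
    conv_rhs => rw [← t.sum_repr u, map_sum]
    conv_lhs => rw [← t.sum_repr u]
    rw [← qCoeffLin_apply]
    simp only [AddSubmonoidClass.coe_finsetSum, LinearMap.coe_sum, Finset.sum_apply, map_sum]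
    refine Finset.sum_congr rfl fun j _ => ?_
    rw [Subalgebra.coe_smul, LinearMap.smul_apply, ← Int.cast_smul_eq_zsmul ℂ, map_smul, hj,
      map_zsmul, Int.cast_smul_eq_zsmul]
  have heig : ∀ u : 𝕋, (u : Module.End ℂ S₂) g = χ u • g := fun u => by
    rw [← sub_eq_zero]
    refine eq_zero_of_forall_qCoeff_one fun w hw => ?_
    rw [← qCoeffLin_apply, map_sub, map_sub, map_smul, map_smul]
    simp only [qCoeffLin_apply]
    rw [show w ((u : Module.End ℂ S₂) g) = ((⟨w, hw⟩ * u : 𝕋) : Module.End ℂ S₂) g from rfl, ha,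
      show w g = ((⟨w, hw⟩ : 𝕋) : Module.End ℂ S₂) g from rfl, ha, map_mul, smul_eq_mul]
    ring
  have hg1 : qCoeff g 1 = 1 := by
    have h1 := ha 1
    rw [map_one] at h1
    exact h1
  let c : ℕ → ℂ := fun p =>
    if hp : p.Prime then
      (if hpN : p ∣ N then χ (CuspForm.heckeAlgebra.U hp hpN (Set.notMem_empty p))
        else χ (CuspForm.heckeAlgebra.T hp hpN (Set.notMem_empty p)))
    else 0
  have hc : IsEigen g c := by
    refine ⟨fun p hp hpN => ?_, fun p hpN hp => ?_⟩
    · have := heig (CuspForm.heckeAlgebra.T hp hpN (Set.notMem_empty p))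
      simpa [c, hp, hpN] using this
    · have := heig (CuspForm.heckeAlgebra.U hp hpN (Set.notMem_empty p))
      simpa [c, hp, hpN] using this
  exact ⟨g, hc.isNormalizedEigenform hg1, heig⟩

/-- If a `ℤ`-basis of `𝕋` stays independent over `ℂ`, so does every independent family. -/
theorem linearIndependent_of_basis {d : ℕ} (b : Basis (Fin d) ℤ 𝕋)
    (hb : LinearIndependent ℂ (fun i => ((b i : 𝕋) : Module.End ℂ S₂))) {ι : Type*} (t : ι → 𝕋)
    (ht : LinearIndependent ℤ t) :
    LinearIndependent ℂ (fun i => ((t i : 𝕋) : Module.End ℂ S₂)) := by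
  have hv : LinearIndependent ℤ (fun i => (b.equivFun (t i) : Fin d → ℤ)) :=
    ht.map' b.equivFun.toLinearMap b.equivFun.ker
  have hvC := (linearIndependent_algebraMap_comp_iff (S := ℂ)).mpr hv
  let F : (Fin d → ℂ) →ₗ[ℂ] Module.End ℂ S₂ :=
    Fintype.linearCombination ℂ (fun i => ((b i : 𝕋) : Module.End ℂ S₂))
  have hF : Function.Injective F :=
    linearIndependent_iff_injective_fintypeLinearCombination.mp hb
  have key : (fun i => ((t i : 𝕋) : Module.End ℂ S₂))
      = fun i => F (algebraMap ℤ ℂ ∘ b.equivFun (t i)) := by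
    funext i
    conv_lhs => rw [← b.sum_repr (t i)]
    simp [F, Fintype.linearCombination_apply, AddSubmonoidClass.coe_finsetSum, Basis.equivFun_apply,
      Int.cast_smul_eq_zsmul]
  rw [key]
  exact hvC.map' F (LinearMap.ker_eq_bot.mpr hF)

end Fermat.Agent.Periods
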