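/- An integral basis of the parabolic homomorphisms of a finitely generated group. Owner: helper52. -/
import Fermat.Prelude.Def_ModularCurve_PeriodHomPair
import Mathlib.LinearAlgebra.FreeModule.PID
import Mathlib.LinearAlgebra.Dual.Defs
import Mathlib.GroupTheory.Schreier
import Mathlib.LinearAlgebra.Matrix.FixedDetMatrices
import Mathlib.NumberTheory.ModularForms.ArithmeticSubgroups

set_option autoImplicit false

noncomputable section

open ModularCurve.Period Module
open scoped MatrixGroups

namespace Fermat.Agent.Periods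

/-- `SL(2, ℤ)` is finitely generated. -/
theorem groupFG_SL2Z : Group.FG SL(2, ℤ) :=
  Group.fg_def.mpr ((Subgroup.fg_iff _).mpr
    ⟨_, SpecialLinearGroup.SL2Z_generators, Set.toFinite _⟩)

/-- The groups `Γ₀(N)` are finitely generated. -/
theorem groupFG_gamma0 (N : ℕ) [NeZero N] : Group.FG (CongruenceSubgroup.Gamma0 N) := by
  have := groupFG_SL2Z
  exact Subgroup.fg_of_index_ne_zero _

variable (Γ : Subgroup SL(2, ℤ))

/-- There are `γ i ∈ Γ` and integral parabolic homomorphisms `e i`, dual to each other, such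
that every complex parabolic homomorphism is `∑ i, φ (γ i) e i`. -/
theorem exists_integralParabolicBasis [Group.FG Γ] :
    ∃ (r : ℕ) (γ : Fin r → Γ) (e : Fin r → (Additive Γ →+ ℤ)),
      (∀ i, e i ∈ parabolicHoms ℤ Γ ℤ) ∧
      (∀ i j, e i (Additive.ofMul (γ j)) = if i = j then 1 else 0) ∧
      ∀ φ ∈ parabolicHoms ℂ Γ ℂ, ∀ g, φ g = ∑ i, (e i g : ℂ) * φ (Additive.ofMul (γ i)) := by
  classical
  let V := parabolicHoms ℂ Γ ℂ
  let ev : Additive Γ →+ Module.Dual ℂ V :=
    AddMonoidHom.mk'
      (fun g =>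
        { toFun := fun φ => (φ : Additive Γ →+ ℂ) g
          map_add' := fun _ _ => rfl
          map_smul' := fun _ _ => rfl })
      (fun g h => LinearMap.ext fun φ => map_add (φ : Additive Γ →+ ℂ) g h)
  let M : Submodule ℤ (Module.Dual ℂ V) := AddSubgroup.toIntSubmodule ev.range
  have : AddGroup.FG (Additive Γ) := GroupFG.iff_add_fg.mp inferInstance
  have : AddGroup.FG ev.range := AddGroup.fg_of_surjective ev.rangeRestrict_surjective
  have : Module.Finite ℤ M := Module.Finite.iff_addGroup_fg.mpr (inferInstanceAs (AddGroup.FG ev.range))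
  have : Module.IsTorsionFree ℤ M :=
    Function.Injective.moduleIsTorsionFree _ M.injective_subtype (fun _ _ => rfl)
  have : Module.Free ℤ M := Module.free_of_finite_type_torsion_free'
  let b := Module.finBasis ℤ M
  have hγ : ∀ i, ∃ g : Γ, ev (Additive.ofMul g) = (b i : Module.Dual ℂ V) := fun i =>
    (b i).2
  choose γ hγ using hγ
  let evM : Additive Γ →+ M := ev.rangeRestrict
  let e : Fin (finrank ℤ M) → (Additive Γ →+ ℤ) := fun i =>
    ((b.coord i).toAddMonoidHom).comp evM
  refine ⟨_, γ, e, fun i g hg => ?_, fun i j => ?_, fun φ hφ g => ?_⟩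
  · have h0 : evM (Additive.ofMul g) = 0 := Subtype.ext (LinearMap.ext fun φ => φ.2 g hg)
    show b.coord i (evM (Additive.ofMul g)) = 0
    rw [h0, map_zero]
  · have h0 : evM (Additive.ofMul (γ j)) = b j := Subtype.ext (hγ j)
    show b.coord i (evM (Additive.ofMul (γ j))) = _
    rw [h0, Basis.coord_apply, b.repr_self, Finsupp.single_apply]
    simp [eq_comm]
  · have h0 : (∑ i, e i g • (b i : Module.Dual ℂ V)) = ev g :=
      (Submodule.coe_sum M (fun i => e i g • b i) _).symm.trans (congrArg Subtype.val (b.sum_repr (evM g)))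
    have h1 := LinearMap.congr_fun h0 ⟨φ, hφ⟩
    rw [LinearMap.coe_sum, Finset.sum_apply] at h1
    refine h1.symm.trans (Finset.sum_congr rfl fun i _ => ?_)
    rw [LinearMap.smul_apply, ← Int.cast_smul_eq_zsmul ℂ, smul_eq_mul, ← hγ i]
    rfl

end Fermat.Agent.Periods
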