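import Fermat.Agent.Periods.HeckePeriods
import Fermat.Agent.Periods.Dimension
import Fermat.Agent.Periods.ParabolicBasis
import Fermat.Agent.Periods.IntegralLattice
import Fermat.Prelude.Def_CuspForm_HeckeAlgebra
import Fermat.Prelude.Def_CuspForm_IntegralStructure

/-!
Team PER (helper52): the weight two Hecke algebra is a lattice; integral structure of `S₂`.

Let `𝕋 = heckeAlgebra N 2 ∅`. Through `periodHomPair` it acts on `parabolicHoms ℤ`, so it is a
finitely generated `ℤ`-module and `ℤ`-independent elements are `ℂ`-independent. The pairing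
`(t, f) ↦ a₁(t f)` is perfect over `ℂ`; forms with `a₁(t f) ∈ ℤ` for all `t` are integral.
-/

set_option autoImplicit false

noncomputable section

open CongruenceSubgroup ModularCurve ModularCurve.Period Module
open scoped MatrixGroups

namespace Fermat.Agent.Periods

variable (N : ℕ) [NeZero N]

local notation "S₂" => CuspForm (CongruenceSubgroup.Gamma0 N) 2

/-- The Eichler–Shimura isomorphism onto the parabolic homomorphisms. -/
def periodEquiv : (S₂ × S₂) ≃ₗ[ℂ] parabolicHoms ℂ (Gamma0 N) ℂ :=
  (LinearEquiv.ofInjective (periodHomPair N) (periodHomPair_injective N)).trans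
    (LinearEquiv.ofEq _ _ (range_periodHomPair N))

theorem coe_periodEquiv (x : S₂ × S₂) :
    (periodEquiv N x : Additive (Gamma0 N) →+ ℂ) = periodHomPair N x :=
  rfl

variable {N}

/-- Every Hecke generator is, through the period map, a Hecke operator on homomorphisms. -/
theorem exists_heckeHom_periodHomPair {T : Module.End ℂ S₂}
    (hT : T ∈ CuspForm.heckeGenerators N 2 ∅) :
    ∃ (p : ℕ) (hp : p.Prime), ∀ x : S₂ × S₂,
      periodHomPair N (T.prodMap T x) = heckeHom ℂ ℂ hp (periodHomPair N x) := by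
  rcases hT with ⟨l, hl, hlN, -, rfl⟩ | ⟨q, hqN, hq, -, rfl⟩
  · exact ⟨l, hl, fun x => (heckeHom_periodHomPair_T hl hlN x.1 x.2).symm⟩
  · exact ⟨q, hq, fun x => (heckeHom_periodHomPair_U hq hqN x.1 x.2).symm⟩

variable (N)

theorem hasHeckeLattice : HasHeckeLattice N := by
  classical
  have := groupFG_gamma0 N
  obtain ⟨r, γ, e, hpar, hdual, hexp⟩ := exists_integralParabolicBasis (Gamma0 N)
  let cast' : Fin r → (Additive (Gamma0 N) →+ ℂ) := fun i => (Int.castAddHom ℂ).comp (e i)
  have hmem : ∀ i, cast' i ∈ parabolicHoms ℂ (Gamma0 N) ℂ := fun i g hg => by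
    show ((e i (Additive.ofMul g) : ℤ) : ℂ) = 0
    rw [hpar i g hg, Int.cast_zero]
  let coord : parabolicHoms ℂ (Gamma0 N) ℂ ≃ₗ[ℂ] (Fin r → ℂ) :=
    { toFun := fun φ i => (φ : Additive (Gamma0 N) →+ ℂ) (Additive.ofMul (γ i))
      map_add' := fun _ _ => rfl
      map_smul' := fun _ _ => rfl
      invFun := fun c => ∑ i, c i • (⟨cast' i, hmem i⟩ : parabolicHoms ℂ (Gamma0 N) ℂ)
      left_inv := fun φ => by
        refine Subtype.ext (AddMonoidHom.ext fun g => ?_)
        rw [Submodule.coe_sum, AddMonoidHom.finsetSum_apply, hexp φ.1 φ.2 g]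
        refine Finset.sum_congr rfl fun i _ => ?_
        exact mul_comm _ _
      right_inv := fun c => funext fun j => by
        show ((∑ i, c i • (⟨cast' i, hmem i⟩ : parabolicHoms ℂ (Gamma0 N) ℂ) :
          parabolicHoms ℂ (Gamma0 N) ℂ) : Additive (Gamma0 N) →+ ℂ) (Additive.ofMul (γ j)) = c j
        rw [Submodule.coe_sum, AddMonoidHom.finsetSum_apply, Finset.sum_eq_single j]
        · show c j * ((e j (Additive.ofMul (γ j)) : ℤ) : ℂ) = c j
          simp [hdual]
        · intro i _ hij
          show c i * ((e i (Additive.ofMul (γ j)) : ℤ) : ℂ) = 0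
          simp [hdual, hij]
        · simp }
  refine ⟨r, Basis.ofEquivFun ((periodEquiv N).trans coord), fun T hT i j => ?_⟩
  obtain ⟨p, hp, hTP⟩ := exists_heckeHom_periodHomPair hT
  refine ⟨heckeHom ℤ ℤ hp (e i) (Additive.ofMul (γ j)), ?_⟩
  set b := Basis.ofEquivFun ((periodEquiv N).trans coord)
  have hb : periodHomPair N (b i) = cast' i := by
    have h1 : periodEquiv N (b i) = ⟨cast' i, hmem i⟩ := by
      apply coord.injective
      have h2 : ((periodEquiv N).trans coord) (b i) = Pi.single i 1 := by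
        rw [Basis.coe_ofEquivFun, LinearEquiv.apply_symm_apply]
      refine h2.trans (funext fun k => ?_)
      show (Pi.single i 1 : Fin r → ℂ) k = ((e i (Additive.ofMul (γ k)) : ℤ) : ℂ)
      simp [hdual, Pi.single_apply, eq_comm]
    rw [← coe_periodEquiv, h1]
  rw [Basis.ofEquivFun_repr_apply]
  show periodHomPair N (T.prodMap T (b i)) (Additive.ofMul (γ j)) = _
  rw [hTP, hb, heckeHom_apply, heckeHom_apply, Int.cast_sum]
  rfl

theorem moduleFinite_heckeAlgebra_two (S : Set ℕ) :
    Module.Finite ℤ (CuspForm.heckeAlgebra N 2 S) := by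
  have := moduleFinite_heckeAlgebra_of_lattice N (hasHeckeLattice N)
  have hle : CuspForm.heckeAlgebra N 2 S ≤ CuspForm.heckeAlgebra N 2 ∅ :=
    CuspForm.heckeAlgebra_mono (Set.empty_subset S)
  exact Module.Finite.of_injective (Subalgebra.inclusion hle).toLinearMap
    (Subalgebra.inclusion_injective hle)

/-- Every coefficient is the first coefficient of a Hecke translate. -/
theorem exists_qCoeff_eq_qCoeff_one {n : ℕ} (_hn : 0 < n) :
    ∃ t ∈ CuspForm.heckeAlgebra N 2 ∅, ∀ f : CuspForm (Gamma0 N) 2,
      ModularFormClass.qCoeff f n = ModularFormClass.qCoeff (t f) 1 :=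
  exists_coeffOp N n

/-- `ℤ`-independent elements of the Hecke algebra are `ℂ`-independent endomorphisms. -/
theorem linearIndependent_complex_of_heckeAlgebra {ι : Type*}
    (t : ι → CuspForm.heckeAlgebra N 2 ∅) (ht : LinearIndependent ℤ t) :
    LinearIndependent ℂ (fun i => (t i : Module.End ℂ (CuspForm (Gamma0 N) 2))) := by
  obtain ⟨d, b, hb⟩ := exists_basis_heckeAlgebra N (hasHeckeLattice N)
  exact linearIndependent_of_basis b hb t ht

theorem hasIntegralStructure_two : CuspForm.HasIntegralStructure N 2 :=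
  hasIntegralStructure_of_lattice N (hasHeckeLattice N)

end Fermat.Agent.Periods
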