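import Fermat.Prelude.Def_ModularCurve_PeriodHomPair
import Mathlib.NumberTheory.ModularForms.CongruenceSubgroups
import Mathlib.Algebra.Algebra.Basic

/-!
Team PER: basic definitions.

`cuspidalHoms R Γ A` is the module of homomorphisms `Γ → A` killing every element with
`trace ^ 2 ≤ 4`, that is the parabolic and the elliptic ones. For torsion-free `A` it coincides
with `ModularCurve.Period.parabolicHoms`.
-/

set_option autoImplicit false

open scoped MatrixGroups

namespace Fermat.Agent.Periods

/-- A homomorphism killing the parabolic and the elliptic elements. -/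
def IsCuspidalHom {Γ : Subgroup SL(2, ℤ)} {A : Type*} [AddCommGroup A] (φ : Additive Γ →+ A) : Prop :=
  ∀ γ : Γ, ((γ : SL(2, ℤ)) : Matrix (Fin 2) (Fin 2) ℤ).trace ^ 2 ≤ 4 → φ (Additive.ofMul γ) = 0

variable (R : Type*) [Semiring R] (Γ : Subgroup SL(2, ℤ)) (A : Type*) [AddCommGroup A] [Module R A]

/-- Homomorphisms killing the parabolic and the elliptic elements. -/
def cuspidalHoms : Submodule R (Additive Γ →+ A) where
  carrier := {φ | IsCuspidalHom φ}
  zero_mem' := fun _ _ => rfl
  add_mem' := by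
    intro φ ψ hφ hψ γ hγ
    show φ (Additive.ofMul γ) + ψ (Additive.ofMul γ) = 0
    rw [hφ γ hγ, hψ γ hγ, add_zero]
  smul_mem' := by
    intro c φ hφ γ hγ
    show c • φ (Additive.ofMul γ) = 0
    rw [hφ γ hγ, smul_zero]

variable {R Γ A}

theorem mem_cuspidalHoms_iff {φ : Additive Γ →+ A} :
    φ ∈ cuspidalHoms R Γ A ↔ IsCuspidalHom φ :=
  Iff.rfl

theorem cuspidalHoms_le_parabolicHoms :
    cuspidalHoms R Γ A ≤ ModularCurve.Period.parabolicHoms R Γ A :=
  fun _ hφ γ hγ => hφ γ hγ.le

end Fermat.Agent.Periods
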