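import Fermat.Prelude.Def_ModularCurve_PeriodHomPair
import Mathlib.NumberTheory.ModularForms.QExpansion
import Mathlib.NumberTheory.ModularForms.Cusps
import Mathlib.Analysis.Complex.HasPrimitives
import Mathlib.Analysis.Complex.RemovableSingularity
import Mathlib.Analysis.Calculus.MeanValue

/-!
# Eichler integrals of weight two cusp forms

Existence and linearity of the period map.
-/

set_option autoImplicit false

noncomputable section

namespace Fermat.Agent.Periods

open UpperHalfPlane hiding I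
open Complex Filter Function CongruenceSubgroup ModularCurve ModularCurve.Period
open scoped Real MatrixGroups Topology Manifold ModularForm

/-- `F` is a primitive of `φ` on the upper half plane. -/
def IsPrimitive (φ F : ℍ → ℂ) : Prop :=
  ∀ τ : ℍ, HasDerivAt (F ∘ ofComplex) (φ τ) ↑τ

namespace IsPrimitive

variable {φ ψ F G : ℍ → ℂ}

theorem add (hF : IsPrimitive φ F) (hG : IsPrimitive ψ G) : IsPrimitive (φ + ψ) (F + G) :=
  fun τ ↦ (hF τ).add (hG τ)

theorem const_smul (hF : IsPrimitive φ F) (c : ℂ) : IsPrimitive (c • φ) (c • F) :=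
  fun τ ↦ (hF τ).const_smul c

theorem add_const (hF : IsPrimitive φ F) (c : ℂ) : IsPrimitive φ (fun τ ↦ F τ + c) :=
  fun τ ↦ (hF τ).add_const c

theorem mdifferentiable (hF : IsPrimitive φ F) : MDiff F :=
  fun τ ↦ mdifferentiableAt_iff.mpr (hF τ).differentiableAt

/-- Two primitives of the same function differ by a constant. -/
theorem sub_eq_sub (hF : IsPrimitive φ F) (hG : IsPrimitive φ G) (z w : ℍ) :
    F z - G z = F w - G w := by
  have hd : ∀ x ∈ {z : ℂ | 0 < z.im},
      HasDerivWithinAt (fun x ↦ (F ∘ ofComplex) x - (G ∘ ofComplex) x) 0 {z : ℂ | 0 < z.im} x := by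
    intro x hx
    have := (hF ⟨x, hx⟩).fun_sub (hG ⟨x, hx⟩)
    simpa using this.hasDerivWithinAt
  have h := (convex_halfSpace_im_gt 0).norm_image_sub_le_of_norm_hasDerivWithin_le
    (C := 0) hd (fun x _ ↦ by simp) w.im_pos z.im_pos
  rw [zero_mul, norm_le_zero_iff, sub_eq_zero] at h
  simpa using h

/-- Chain rule: a primitive composed with a Moebius map is a primitive of the slashed function. -/
theorem comp_smul (hF : IsPrimitive φ F) {g : GL (Fin 2) ℝ} (hg : 0 < g.val.det) :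
    IsPrimitive (φ ∣[(2 : ℤ)] g) (fun τ ↦ F (g • τ)) := by
  intro τ
  have hdet : g.det.val = g.val.det := Matrix.GeneralLinearGroup.val_det_apply g
  have hσ : σ g (φ (g • τ)) = φ (g • τ) := by grind [σ, ContinuousAlgEquiv.refl_apply]
  have h1 := (hasStrictDerivAt_smul hg τ).hasDerivAt
  have h2 : HasDerivAt (F ∘ ofComplex) (φ (g • τ)) ↑(g • ofComplex (τ : ℂ)) := by
    simpa using hF (g • τ)
  have h3 := h2.comp (τ : ℂ) h1
  have hcomp : ((fun τ ↦ F (g • τ)) ∘ ofComplex)
      = (F ∘ ofComplex) ∘ (fun z ↦ (↑(g • ofComplex z) : ℂ)) := by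
    funext z
    simp
  rw [hcomp]
  refine h3.congr_deriv ?_
  rw [ModularForm.slash_apply, hσ, hdet, abs_of_pos hg]
  simp [zpow_neg, zpow_ofNat, div_eq_mul_inv, mul_assoc]

/-- Chain rule for `SL(2, ℤ)`. -/
theorem comp_SL_smul (hF : IsPrimitive φ F) (g : SL(2, ℤ)) :
    IsPrimitive (φ ∣[(2 : ℤ)] g) (fun τ ↦ F (g • τ)) := by
  have hg : 0 < ((Matrix.SpecialLinearGroup.mapGL ℝ g : GL (Fin 2) ℝ)).val.det := by
    rw [← Matrix.GeneralLinearGroup.val_det_apply, Matrix.SpecialLinearGroup.det_mapGL]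
    exact one_pos
  exact hF.comp_smul hg

end IsPrimitive

/-- A periodic holomorphic function vanishing at `i∞` has a primitive vanishing at `i∞`. -/
theorem exists_primitive_of_periodic {φ : ℍ → ℂ} {h : ℝ} (hh : 0 < h)
    (hper : Periodic (φ ∘ ofComplex) h) (hhol : MDiff φ) (hzero : IsZeroAtImInfty φ) :
    ∃ F : ℍ → ℂ, IsPrimitive φ F ∧ Tendsto F atImInfty (𝓝 0) := by
  have hd := differentiableOn_cuspFunction_ball hh hper hhol hzero.boundedAtFilter
  have h0 : cuspFunction h φ 0 = 0 := by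
    rw [cuspFunction_apply_zero hh (analyticAt_cuspFunction_zero hh hper hhol
      hzero.boundedAtFilter) hper, hzero.valueAtInfty_eq_zero]
  have hd' : DifferentiableOn ℂ (dslope (cuspFunction h φ) 0) (Metric.ball 0 1) :=
    (Complex.differentiableOn_dslope (Metric.ball_mem_nhds 0 one_pos)).mpr hd
  obtain ⟨H, hH⟩ := hd'.isExactOn_ball
  set c : ℂ := 2 * π * Complex.I / h with hc
  have hc0 : c ≠ 0 := by
    simp [hc, Real.pi_ne_zero, Complex.I_ne_zero, hh.ne']
  refine ⟨fun τ ↦ (H (Periodic.qParam h τ) - H 0) / c, fun τ ↦ ?_, ?_⟩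
  · have hq : HasDerivAt (Periodic.qParam h) (Periodic.qParam h τ * c) (τ : ℂ) := by
      have := (((hasDerivAt_id (τ : ℂ)).const_mul (2 * π * Complex.I)).div_const (h : ℂ)).cexp
      unfold Periodic.qParam
      simpa [hc, Function.comp_def] using this
    have hmem : Periodic.qParam h τ ∈ Metric.ball (0 : ℂ) 1 := by
      simpa using Periodic.norm_qParam_lt_one hh τ.im_pos
    have h1 := (((hH _ hmem).comp (τ : ℂ) hq).sub_const (H 0)).div_const c
    have hne : Periodic.qParam h τ ≠ 0 := Periodic.qParam_ne_zero _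
    have hval : dslope (cuspFunction h φ) 0 (Periodic.qParam h τ) * (Periodic.qParam h τ * c) / c
        = φ τ := by
      rw [dslope_of_ne _ hne, slope_def_field, h0, eq_cuspFunction τ hh.ne' hper]
      field_simp
      ring
    rw [hval] at h1
    refine h1.congr_of_eventuallyEq ?_
    filter_upwards [isOpen_upperHalfPlaneSet.mem_nhds τ.im_pos] with z hz
    simp [ofComplex_apply_of_im_pos hz]
  · have hcont : Tendsto (fun q ↦ (H q - H 0) / c) (𝓝 0) (𝓝 ((H 0 - H 0) / c)) :=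
      ((hH 0 (by simp)).continuousAt.sub continuousAt_const).div_const c
    rw [sub_self, zero_div] at hcont
    exact hcont.comp (qParam_tendsto_atImInfty hh)

/-- Membership in `Γ(N)` of conjugates of `T ^ N` gives membership in `Γ₀(N)`. -/
theorem conj_T_pow_mem_Gamma0 (N : ℕ) (δ : SL(2, ℤ)) :
    δ * ModularGroup.T ^ (N : ℤ) * δ⁻¹ ∈ Gamma0 N := by
  have hT : ModularGroup.T ^ (N : ℤ) ∈ Gamma N := by
    rw [Gamma_mem, ModularGroup.coe_T_zpow]
    simp
  have h := (Gamma_normal N).conj_mem _ hT δ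
  exact Gamma0_mem.mpr (Gamma_mem.mp h).2.2.1

section Forms

variable {N : ℕ} [NeZero N]

omit [NeZero N] in
theorem slash_eq_self (f : CuspForm (Gamma0 N) 2) {γ : SL(2, ℤ)} (hγ : γ ∈ Gamma0 N) :
    (f : ℍ → ℂ) ∣[(2 : ℤ)] γ = f :=
  SlashInvariantFormClass.slash_action_eq f _ ⟨γ, hγ, rfl⟩

omit [NeZero N] in
theorem periodic_slash (f : CuspForm (Gamma0 N) 2) (δ : SL(2, ℤ)) :
    Periodic (((f : ℍ → ℂ) ∣[(2 : ℤ)] δ) ∘ ofComplex) ((N : ℝ) : ℂ) := by
  have key : ∀ τ : ℍ, ((f : ℍ → ℂ) ∣[(2 : ℤ)] δ) ((N : ℝ) +ᵥ τ)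
      = ((f : ℍ → ℂ) ∣[(2 : ℤ)] δ) τ := by
    intro τ
    have h1 : ((f : ℍ → ℂ) ∣[(2 : ℤ)] δ) ∣[(2 : ℤ)] (ModularGroup.T ^ (N : ℤ))
        = (f : ℍ → ℂ) ∣[(2 : ℤ)] δ := by
      rw [← SlashAction.slash_mul,
        show δ * ModularGroup.T ^ (N : ℤ) = δ * ModularGroup.T ^ (N : ℤ) * δ⁻¹ * δ by group,
        SlashAction.slash_mul, slash_eq_self f (conj_T_pow_mem_Gamma0 N δ)]
    have h2 := congrFun h1 τ
    rw [ModularForm.SL_slash_apply, modular_T_zpow_smul] at h2
    have hd : denom (ModularGroup.T ^ (N : ℤ) : SL(2, ℤ)) (τ : ℂ) = 1 := by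
      have e : ((ModularGroup.T ^ (N : ℤ) : SL(2, ℤ)) : Matrix (Fin 2) (Fin 2) ℤ) 1 0 = 0 ∧
          ((ModularGroup.T ^ (N : ℤ) : SL(2, ℤ)) : Matrix (Fin 2) (Fin 2) ℤ) 1 1 = 1 := by
        rw [ModularGroup.coe_T_zpow]
        simp
      rw [ModularGroup.denom_apply, e.1, e.2]
      simp
    rw [hd, one_zpow, mul_one] at h2
    exact_mod_cast h2
  intro w
  by_cases hw : 0 < w.im
  · have hw' : 0 < (w + ((N : ℝ) : ℂ)).im := by simpa using hw
    simp only [Function.comp_apply, ofComplex_apply_of_im_pos hw, ofComplex_apply_of_im_pos hw']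
    convert key ⟨w, hw⟩ using 2
    ext
    simp [add_comm]
  · have hw' : (w + ((N : ℝ) : ℂ)).im ≤ 0 := by simpa using hw
    simp only [Function.comp_apply, ofComplex_apply_of_im_nonpos (not_lt.mp hw),
      ofComplex_apply_of_im_nonpos hw']

omit [NeZero N] in
theorem mdifferentiable_slash (f : CuspForm (Gamma0 N) 2) (δ : SL(2, ℤ)) :
    MDiff ((f : ℍ → ℂ) ∣[(2 : ℤ)] δ) :=
  MDifferentiable.slash (CuspFormClass.holo f) _ _

/-- The translate of a cusp form by any element of `SL(2, ℤ)` has a primitive vanishing at `i∞`. -/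
theorem exists_primitive_slash (f : CuspForm (Gamma0 N) 2) (δ : SL(2, ℤ)) :
    ∃ G : ℍ → ℂ, IsPrimitive ((f : ℍ → ℂ) ∣[(2 : ℤ)] δ) G ∧ Tendsto G atImInfty (𝓝 0) :=
  exists_primitive_of_periodic (Nat.cast_pos.mpr (NeZero.pos N)) (periodic_slash f δ)
    (mdifferentiable_slash f δ) (CuspFormClass.zero_at_infty_slash f δ)

/-- Every primitive of a cusp form has a finite limit at every cusp. -/
theorem exists_tendsto_smul (f : CuspForm (Gamma0 N) 2) {F : ℍ → ℂ} (hF : IsPrimitive f F)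
    (δ : SL(2, ℤ)) : ∃ L : ℂ, Tendsto (fun w : ℍ ↦ F (δ • w)) atImInfty (𝓝 L) := by
  obtain ⟨G, hG, hG0⟩ := exists_primitive_slash f δ
  refine ⟨0 + (F (δ • UpperHalfPlane.I) - G UpperHalfPlane.I), ?_⟩
  refine (hG0.add_const (F (δ • UpperHalfPlane.I) - G UpperHalfPlane.I)).congr fun w ↦ ?_
  have h := (hF.comp_SL_smul δ).sub_eq_sub hG w UpperHalfPlane.I
  linear_combination -h

/-- A primitive is bounded near every cusp. -/
theorem isBoundedAtImInfty_smul (f : CuspForm (Gamma0 N) 2) {F : ℍ → ℂ} (hF : IsPrimitive f F)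
    (δ : SL(2, ℤ)) : IsBoundedAtImInfty (fun w : ℍ ↦ F (δ • w)) := by
  obtain ⟨L, hL⟩ := exists_tendsto_smul f hF δ
  exact hL.isBigO_one ℝ

omit [NeZero N] in
/-- Every primitive of a form of weight two is equivariant up to additive constants. -/
theorem isEquivariantPrimitive (f : CuspForm (Gamma0 N) 2) {F : ℍ → ℂ} (hF : IsPrimitive f F) :
    IsEquivariantPrimitive (Gamma0 N) F := by
  intro γ
  refine ⟨F ((γ : SL(2, ℤ)) • UpperHalfPlane.I) - F UpperHalfPlane.I, fun z ↦ ?_⟩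
  have h := hF.comp_SL_smul (γ : SL(2, ℤ))
  rw [slash_eq_self f γ.2] at h
  exact h.sub_eq_sub hF z UpperHalfPlane.I

theorem exists_hasEquivariantPrimitive (f : CuspForm (Gamma0 N) 2) :
    ∃ F : ℍ → ℂ, HasEquivariantPrimitive N f F := by
  obtain ⟨F, hF, hF0⟩ := exists_primitive_slash f 1
  rw [SlashAction.slash_one] at hF
  exact ⟨F, hF, hF0, isEquivariantPrimitive f hF, exists_tendsto_smul f hF⟩

/-- The period map can be computed from any primitive at any base point. -/
theorem periodMap_apply (f : CuspForm (Gamma0 N) 2) {F : ℍ → ℂ} (hF : IsPrimitive f F)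
    (γ : Gamma0 N) (z : ℍ) :
    periodMap N f (Additive.ofMul γ) = F ((γ : SL(2, ℤ)) • z) - F z := by
  obtain ⟨G, hG⟩ := exists_hasEquivariantPrimitive f
  obtain ⟨F₀, h₀, he⟩ := periodMap_def N f hG
  rw [he, IsEquivariantPrimitive.periodHom_apply, ← h₀.2.2.1.sub_eq_period γ z]
  linear_combination IsPrimitive.sub_eq_sub h₀.1 hF ((γ : SL(2, ℤ)) • z) z

omit [NeZero N] in
/-- The Eichler integral is unique. -/
theorem hasEquivariantPrimitive_unique {f : CuspForm (Gamma0 N) 2} {F F' : ℍ → ℂ}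
    (hF : HasEquivariantPrimitive N f F) (hF' : HasEquivariantPrimitive N f F') : F = F' := by
  funext τ
  have h := hF.2.1.sub hF'.2.1
  rw [sub_self] at h
  exact sub_eq_zero.mp (tendsto_nhds_unique
    (tendsto_const_nhds.congr fun w ↦ IsPrimitive.sub_eq_sub hF.1 hF'.1 τ w) h)

theorem periodMap_add (f g : CuspForm (Gamma0 N) 2) :
    periodMap N (f + g) = periodMap N f + periodMap N g := by
  obtain ⟨F, hF⟩ := exists_hasEquivariantPrimitive f
  obtain ⟨G, hG⟩ := exists_hasEquivariantPrimitive g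
  have hFG : IsPrimitive ⇑(f + g) (F + G) := IsPrimitive.add hF.1 hG.1
  refine AddMonoidHom.ext fun x ↦ ?_
  rw [← ofMul_toMul x, AddMonoidHom.add_apply, periodMap_apply (f + g) hFG _ UpperHalfPlane.I,
    periodMap_apply f hF.1 _ UpperHalfPlane.I, periodMap_apply g hG.1 _ UpperHalfPlane.I]
  simp only [Pi.add_apply]
  ring

theorem periodMap_smul (c : ℂ) (f : CuspForm (Gamma0 N) 2) :
    periodMap N (c • f) = c • periodMap N f := by
  obtain ⟨F, hF⟩ := exists_hasEquivariantPrimitive f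
  have hcF : IsPrimitive ⇑(c • f) (c • F) := IsPrimitive.const_smul hF.1 c
  refine AddMonoidHom.ext fun x ↦ ?_
  rw [← ofMul_toMul x, AddMonoidHom.smul_apply, periodMap_apply (c • f) hcF _ UpperHalfPlane.I,
    periodMap_apply f hF.1 _ UpperHalfPlane.I]
  simp only [Pi.smul_apply, smul_eq_mul]
  ring

variable (N) in
/-- The period map as a linear map. -/
def periodLin : CuspForm (Gamma0 N) 2 →ₗ[ℂ] (Additive (Gamma0 N) →+ ℂ) where
  toFun := periodMap N
  map_add' := periodMap_add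
  map_smul' := periodMap_smul

@[simp]
theorem periodLin_apply (f : CuspForm (Gamma0 N) 2) : periodLin N f = periodMap N f := rfl

variable (N) in
theorem existsPeriodMapLinear : ExistsPeriodMapLinear N := ⟨periodLin N, fun _ ↦ rfl⟩

variable (N) in
theorem periodHomPair_eq : periodHomPair N = LinearMap.coprod
    ((LinearMap.id + charInvolution N ℂ ℂ) ∘ₗ periodLin N)
    ((LinearMap.id - charInvolution N ℂ ℂ) ∘ₗ periodLin N) := by
  obtain ⟨pml, hpml, he⟩ := periodHomPair_def N (existsPeriodMapLinear N)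
  obtain rfl : pml = periodLin N := LinearMap.ext fun f ↦ hpml f
  exact he

theorem periodHomPair_apply (f g : CuspForm (Gamma0 N) 2) :
    periodHomPair N (f, g) = periodMap N f + charInvolution N ℂ ℂ (periodMap N f)
      + (periodMap N g - charInvolution N ℂ ℂ (periodMap N g)) := by
  simp [periodHomPair_eq]

end Forms

/-- A coprime decomposition of a pair of integers. -/
theorem exists_coprime_int_decomp (m n : ℤ) (hn : n ≠ 0) : ∃ p q : ℤ, IsCoprime p q ∧
    p * (Int.gcd m n : ℤ) = m ∧ q * (Int.gcd m n : ℤ) = n := by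
  obtain ⟨g, p, q, hg, hpq, hp, hq⟩ := Int.exists_gcd_one' (Int.gcd_pos_of_ne_zero_right m hn)
  have hg' : Int.gcd m n = g := by
    rw [hp, hq, Int.gcd_mul_right, hpq]
    simp
  exact ⟨p, q, Int.isCoprime_iff_gcd_eq_one.mpr hpq, by rw [hg', ← hp], by rw [hg', ← hq]⟩

/-- A trace `±2` element of `SL(2, ℤ)` acts as a translation after conjugation. -/
theorem exists_conj_translation (γ : SL(2, ℤ))
    (hγ : (γ : Matrix (Fin 2) (Fin 2) ℤ).trace ^ 2 = 4) :
    ∃ (δ : SL(2, ℤ)) (k : ℤ), ∀ w : ℍ, γ • δ • w = δ • ((k : ℝ) +ᵥ w) := by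
  obtain ⟨a, b, c, d, hdet, hM⟩ : ∃ a b c d : ℤ, a * d - b * c = 1 ∧
      (γ : Matrix (Fin 2) (Fin 2) ℤ) = !![a, b; c, d] := by
    refine ⟨γ 0 0, γ 0 1, γ 1 0, γ 1 1, ?_, Matrix.eta_fin_two _⟩
    rw [← Matrix.det_fin_two]
    exact γ.2
  rw [hM, Matrix.trace_fin_two_of] at hγ
  obtain ⟨ε, hε, htr⟩ : ∃ ε : ℤ, (ε = 1 ∨ ε = -1) ∧ a + d = 2 * ε := by
    rcases sq_eq_sq_iff_eq_or_eq_neg.mp (show (a + d) ^ 2 = 2 ^ 2 by linarith) with h | h
    · exact ⟨1, Or.inl rfl, by linarith⟩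
    · exact ⟨-1, Or.inr rfl, by linarith⟩
  have hε2 : ε * ε = 1 := by rcases hε with rfl | rfl <;> norm_num
  -- an invariant primitive vector
  obtain ⟨p, q, hpq, hv0, hv1⟩ : ∃ p q : ℤ, IsCoprime p q ∧ a * p + b * q = ε * p ∧
      c * p + d * q = ε * q := by
    by_cases hc : c = 0
    · refine ⟨1, 0, isCoprime_one_left, ?_, ?_⟩
      · have h2 : (a - ε) ^ 2 = 0 := by
          subst hc
          linear_combination -hdet + a * htr + hε2
        have := pow_eq_zero_iff two_ne_zero |>.mp h2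
        linarith
      · simp [hc]
    · obtain ⟨p, q, hpq, hp, hq⟩ := exists_coprime_int_decomp (a - ε) c hc
      refine ⟨p, q, hpq, ?_, ?_⟩
      · refine mul_right_cancel₀ (b := ((Int.gcd (a - ε) c : ℤ))) ?_ ?_
        · simp [Int.gcd_eq_zero_iff, hc]
        · linear_combination (a - ε) * hp + b * hq - hdet + a * htr + hε2
      · refine mul_right_cancel₀ (b := ((Int.gcd (a - ε) c : ℤ))) ?_ ?_
        · simp [Int.gcd_eq_zero_iff, hc]
        · linear_combination c * hp + (d - ε) * hq + c * htr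
  obtain ⟨x, y, hxy⟩ := hpq
  let δ : SL(2, ℤ) := ⟨!![p, -y; q, x], by rw [Matrix.det_fin_two_of]; linarith⟩
  refine ⟨δ, ε * (x * (-a * y + b * x) + y * (-c * y + d * x)), fun w ↦ ?_⟩
  let M : SL(2, ℤ) := δ⁻¹ * γ * δ
  have hM' : (M : Matrix (Fin 2) (Fin 2) ℤ)
      = !![ε, x * (-a * y + b * x) + y * (-c * y + d * x); 0, ε] := by
    have e : (δ : Matrix (Fin 2) (Fin 2) ℤ) = !![p, -y; q, x] := rfl
    show ((δ⁻¹ * γ * δ : SL(2, ℤ)) : Matrix (Fin 2) (Fin 2) ℤ) = _
    rw [Matrix.SpecialLinearGroup.coe_mul, Matrix.SpecialLinearGroup.coe_mul,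
      Matrix.SpecialLinearGroup.coe_inv, e, Matrix.adjugate_fin_two_of, hM]
    ext i j
    fin_cases i <;> fin_cases j <;> simp [Matrix.mul_apply, Fin.sum_univ_two]
    · linear_combination x * hv0 + y * hv1 + ε * hxy
    · ring
    · linear_combination (-q) * hv0 + p * hv1
    · linear_combination (-x) * hv0 - y * hv1 + (a + d - ε) * hxy + htr
  have key : M • w = ((ε * (x * (-a * y + b * x) + y * (-c * y + d * x)) : ℤ) : ℝ) +ᵥ w := by
    ext
    rw [coe_specialLinearGroup_apply, coe_vadd, hM']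
    rcases hε with rfl | rfl <;> simp <;> ring
  rw [← key, ← mul_smul, ← mul_smul]
  simp [M, mul_assoc]


section Forms

variable {N : ℕ} [NeZero N]

/-- The periods of a cusp form vanish on parabolic elements. -/
theorem periodMap_mem_parabolicHoms (f : CuspForm (Gamma0 N) 2) :
    periodMap N f ∈ parabolicHoms ℂ (Gamma0 N) ℂ := by
  intro γ hγ
  obtain ⟨δ, k, hk⟩ := exists_conj_translation (γ : SL(2, ℤ)) hγ
  obtain ⟨F, hF⟩ := exists_hasEquivariantPrimitive f
  obtain ⟨L, hL⟩ := exists_tendsto_smul f hF.1 δ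
  have hv : Tendsto (fun w : ℍ ↦ (k : ℝ) +ᵥ w) atImInfty atImInfty := by
    simp only [atImInfty, tendsto_comap_iff, Function.comp_def, vadd_im]
    exact tendsto_comap
  have h2 := (hL.comp hv).sub hL
  rw [sub_self] at h2
  refine tendsto_nhds_unique (tendsto_const_nhds.congr fun w ↦ ?_) h2
  rw [Function.comp_apply, ← hk w, periodMap_apply f hF.1 γ (δ • w)]

theorem range_periodHomPair_le :
    LinearMap.range (periodHomPair N) ≤ parabolicHoms ℂ (Gamma0 N) ℂ := by
  rintro _ ⟨⟨f, g⟩, rfl⟩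
  have hf := periodMap_mem_parabolicHoms f
  have hg := periodMap_mem_parabolicHoms g
  rw [periodHomPair_apply]
  exact add_mem (add_mem hf (charInvolution_mem_parabolicHoms N ℂ ℂ hf))
    (sub_mem hg (charInvolution_mem_parabolicHoms N ℂ ℂ hg))

end Forms

/-- `H` extends holomorphically to the width `h` disc at every cusp. -/
def HasCuspDiscs (h : ℝ) (H : ℍ → ℂ) : Prop :=
  ∀ δ : SL(2, ℤ), ∃ Φ : ℂ → ℂ, DifferentiableOn ℂ Φ (Metric.ball 0 1) ∧
    ∀ w : ℍ, H (δ • w) = Φ (Periodic.qParam h w)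

theorem HasCuspDiscs.add {h : ℝ} {F G : ℍ → ℂ} (hF : HasCuspDiscs h F) (hG : HasCuspDiscs h G) :
    HasCuspDiscs h (F + G) := fun δ ↦ by
  obtain ⟨Φ, hΦ, hΦe⟩ := hF δ
  obtain ⟨Ψ, hΨ, hΨe⟩ := hG δ
  exact ⟨Φ + Ψ, hΦ.add hΨ, fun w ↦ congrArg₂ (· + ·) (hΦe w) (hΨe w)⟩

theorem HasCuspDiscs.const_smul {h : ℝ} {F : ℍ → ℂ} (hF : HasCuspDiscs h F) (c : ℂ) :
    HasCuspDiscs h (c • F) := fun δ ↦ by
  obtain ⟨Φ, hΦ, hΦe⟩ := hF δ
  exact ⟨c • Φ, hΦ.const_smul c, fun w ↦ congrArg (c • ·) (hΦe w)⟩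

/-- Refinement of `exists_tendsto_smul`: primitives extend to the discs at all cusps. -/
theorem hasCuspDiscs_primitive {N : ℕ} [NeZero N] (f : CuspForm (Gamma0 N) 2) {F : ℍ → ℂ}
    (hF : IsPrimitive f F) : HasCuspDiscs N F := by
  intro δ
  set h : ℝ := (N : ℝ)
  have hh : 0 < h := Nat.cast_pos.mpr (NeZero.pos N)
  obtain ⟨G, hG, hG0⟩ := exists_primitive_slash f δ
  set L : ℂ := F (δ • UpperHalfPlane.I) - G UpperHalfPlane.I with hL
  have hFG : ∀ w : ℍ, F (δ • w) = G w + L := fun w ↦ by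
    have := (hF.comp_SL_smul δ).sub_eq_sub hG w UpperHalfPlane.I
    linear_combination this
  have hper : Periodic (G ∘ ofComplex) (h : ℂ) := by
    have e : ∀ τ : ℍ, G (h +ᵥ τ) = G τ := by
      have hp : IsPrimitive ((f : ℍ → ℂ) ∣[(2 : ℤ)] δ) (fun τ ↦ G (h +ᵥ τ)) := by
        intro τ
        have e2 : ((f : ℍ → ℂ) ∣[(2 : ℤ)] δ) (h +ᵥ τ) = ((f : ℍ → ℂ) ∣[(2 : ℤ)] δ) τ := by
          have := periodic_slash f δ (τ : ℂ)
          simp only [Function.comp_apply, ofComplex_apply] at this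
          rw [ofComplex_apply_of_im_pos (by simpa using τ.im_pos)] at this
          refine Eq.trans (congrArg _ (UpperHalfPlane.ext ?_)) this
          simp [h, add_comm]
        have h1 := hG (h +ᵥ τ)
        rw [e2, show ((h +ᵥ τ : ℍ) : ℂ) = (τ : ℂ) + (h : ℂ) by simp [add_comm]] at h1
        refine (h1.comp_add_const (τ : ℂ) (h : ℂ)).congr_of_eventuallyEq ?_
        filter_upwards [isOpen_upperHalfPlaneSet.mem_nhds τ.im_pos] with z hz
        simp only [Function.comp_apply]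
        rw [ofComplex_apply_of_im_pos hz, ofComplex_apply_of_im_pos (by simpa using hz)]
        congr 1
        ext
        simp [add_comm]
      have hv : Tendsto (fun τ : ℍ ↦ h +ᵥ τ) atImInfty atImInfty := by
        simp only [atImInfty, tendsto_comap_iff, Function.comp_def, vadd_im]
        exact tendsto_comap
      intro τ
      have h2 := (hG0.comp hv).sub hG0
      rw [sub_self] at h2
      exact sub_eq_zero.mp (tendsto_nhds_unique
        (tendsto_const_nhds.congr fun w ↦ hp.sub_eq_sub hG τ w) h2)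
    intro z
    by_cases hz : 0 < z.im
    · have hz' : 0 < (z + (h : ℂ)).im := by simpa using hz
      simp only [Function.comp_apply, ofComplex_apply_of_im_pos hz, ofComplex_apply_of_im_pos hz']
      rw [← e ⟨z, hz⟩]
      congr 1
      ext
      simp [add_comm]
    · have hz' : (z + (h : ℂ)).im ≤ 0 := by simpa using hz
      simp only [Function.comp_apply, ofComplex_apply_of_im_nonpos (not_lt.mp hz),
        ofComplex_apply_of_im_nonpos hz']
  have hbd : IsBoundedAtImInfty G := Filter.ZeroAtFilter.boundedAtFilter hG0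
  exact ⟨fun q ↦ cuspFunction h G q + L,
    (differentiableOn_cuspFunction_ball hh hper hG.mdifferentiable hbd).add_const L,
    fun w ↦ by rw [hFG]; simp only [eq_cuspFunction w hh.ne' hper]⟩

end Fermat.Agent.Periods
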