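import Fermat.Agent.Periods.Defs
import Mathlib.GroupTheory.FiniteAbelian.Basic
import Mathlib.GroupTheory.Abelianization.Defs
import Mathlib.Analysis.Complex.Basic
import Mathlib.LinearAlgebra.Dimension.Constructions
import Mathlib.FieldTheory.Finite.Basic

/-!
Team PER (helper48): if the cuspidal homomorphisms of a finitely generated `Γ` have dimension at
most `d` modulo every prime and at least `d` over `ℂ`, the cuspidal quotient of `Γ` is `ℤ^d`.
-/

set_option autoImplicit false

open scoped MatrixGroups DirectSum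
open Module

universe u

namespace Fermat.Agent.Periods

variable (Γ : Subgroup SL(2, ℤ))

/-- The images in the abelianisation of the elements with trace squared at most four. -/
def nonHyperbolicSet : Set (Additive (Abelianization Γ)) :=
  (fun γ => Additive.ofMul (Abelianization.of γ)) ''
    {γ : Γ | ((γ : SL(2, ℤ)) : Matrix (Fin 2) (Fin 2) ℤ).trace ^ 2 ≤ 4}

/-- The cuspidal quotient of `Γ`. -/
abbrev CuspidalQuot : Type :=
  Additive (Abelianization Γ) ⧸ AddSubgroup.closure (nonHyperbolicSet Γ)

/-- The projection to the cuspidal quotient. -/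
def toCuspidalQuot : Additive Γ →+ CuspidalQuot Γ :=
  (QuotientAddGroup.mk' _).comp (MonoidHom.toAdditive Abelianization.of)

theorem toCuspidalQuot_surjective : Function.Surjective (toCuspidalQuot Γ) := by
  intro x
  obtain ⟨a, rfl⟩ := QuotientAddGroup.mk_surjective x
  obtain ⟨g, hg⟩ := QuotientGroup.mk_surjective a.toMul
  exact ⟨Additive.ofMul g, congrArg (fun b => (QuotientAddGroup.mk (Additive.ofMul b) :
    CuspidalQuot Γ)) hg⟩

theorem isCuspidalHom_comp {A : Type*} [AddCommGroup A] (f : CuspidalQuot Γ →+ A) :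
    IsCuspidalHom (f.comp (toCuspidalQuot Γ)) := fun γ hγ => by
  have h : toCuspidalQuot Γ (Additive.ofMul γ) = 0 :=
    (QuotientAddGroup.eq_zero_iff _).mpr (AddSubgroup.subset_closure ⟨γ, hγ, rfl⟩)
  rw [AddMonoidHom.comp_apply, h, map_zero]

variable {Γ}

theorem exists_factor_cuspidalQuot {A : Type*} [AddCommGroup A] {φ : Additive Γ →+ A}
    (hφ : IsCuspidalHom φ) : ∃ f : CuspidalQuot Γ →+ A, f.comp (toCuspidalQuot Γ) = φ := by
  refine ⟨QuotientAddGroup.lift _ (MonoidHom.toAdditiveLeft
    (Abelianization.lift (AddMonoidHom.toMultiplicativeRight φ))) ?_, ?_⟩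
  · rw [AddSubgroup.closure_le]
    rintro _ ⟨γ, hγ, rfl⟩
    simpa using hφ γ hγ
  · ext g
    simp [toCuspidalQuot]

variable (Γ)

theorem exists_cuspidalBasis_of_bounds [Group.FG Γ] {d : ℕ}
    (hfin : ∀ p : ℕ, [Fact p.Prime] → Module.Finite (ZMod p) (cuspidalHoms (ZMod p) Γ (ZMod p)))
    (hle : ∀ p : ℕ, [Fact p.Prime] → finrank (ZMod p) (cuspidalHoms (ZMod p) Γ (ZMod p)) ≤ d)
    (hge : d ≤ finrank ℂ (cuspidalHoms ℂ Γ ℂ)) :
    ∃ (γ : Fin d → Γ) (e : Fin d → (Additive Γ →+ ℤ)),
      (∀ i, IsCuspidalHom (e i)) ∧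
      (∀ i j, e i (Additive.ofMul (γ j)) = if i = j then 1 else 0) ∧
      ∀ (A : Type u) [AddCommGroup A] (φ : Additive Γ →+ A), IsCuspidalHom φ →
        ∀ g, φ g = ∑ i, e i g • φ (Additive.ofMul (γ i)) := by
  classical
  have : AddGroup.FG (Additive Γ) := GroupFG.iff_add_fg.mp inferInstance
  have : AddGroup.FG (CuspidalQuot Γ) := AddGroup.fg_of_surjective (toCuspidalQuot_surjective Γ)
  obtain ⟨n, ι, _, p, hp, k, ⟨E⟩⟩ :=
    AddCommGroup.equiv_free_prod_directSum_zmod (CuspidalQuot Γ)
  -- the free coordinates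
  let c : Fin n → (CuspidalQuot Γ →+ ℤ) := fun j =>
    (Finsupp.applyAddHom j).comp ((AddMonoidHom.fst _ _).comp E.toAddMonoidHom)
  have hc : ∀ q j, c j q = (E q).1 j := fun _ _ => rfl
  -- there is no torsion
  have hk : ∀ i, n + (if k i = 0 then 0 else 1) ≤ d := by
    intro i
    have := Fact.mk (hp i)
    have := hfin (p i)
    refine le_trans ?_ (hle (p i))
    by_cases hki : k i = 0
    · rw [if_pos hki, add_zero]
      let v : Fin n → cuspidalHoms (ZMod (p i)) Γ (ZMod (p i)) := fun j =>
        ⟨((Int.castAddHom (ZMod (p i))).comp (c j)).comp (toCuspidalQuot Γ),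
          isCuspidalHom_comp Γ _⟩
      have hv : LinearIndependent (ZMod (p i)) v := by
        rw [Fintype.linearIndependent_iff]
        intro a ha j
        obtain ⟨g, hg⟩ := toCuspidalQuot_surjective Γ (E.symm (Finsupp.single j 1, 0))
        have h := congrArg (fun φ : cuspidalHoms (ZMod (p i)) Γ (ZMod (p i)) =>
          (φ : Additive Γ →+ ZMod (p i)) g) ha
        simpa [v, hg, hc, Finsupp.single_apply, apply_ite] using h
      simpa using hv.fintype_card_le_finrank
    · rw [if_neg hki]
      let c' : CuspidalQuot Γ →+ ZMod (p i) :=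
        ((ZMod.castHom (dvd_pow_self (p i) hki) (ZMod (p i))).toAddMonoidHom.comp
          (DFinsupp.evalAddMonoidHom i)).comp ((AddMonoidHom.snd _ _).comp E.toAddMonoidHom)
      have hc' : ∀ q, c' q = ZMod.castHom (dvd_pow_self (p i) hki) (ZMod (p i)) ((E q).2 i) :=
        fun _ => rfl
      let v : Fin n ⊕ Unit → cuspidalHoms (ZMod (p i)) Γ (ZMod (p i)) := fun x =>
        ⟨(Sum.elim (fun j => (Int.castAddHom (ZMod (p i))).comp (c j)) (fun _ => c') x).comp
          (toCuspidalQuot Γ), isCuspidalHom_comp Γ _⟩
      have hv : LinearIndependent (ZMod (p i)) v := by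
        rw [Fintype.linearIndependent_iff]
        intro a ha x
        obtain j | u := x
        · obtain ⟨g, hg⟩ := toCuspidalQuot_surjective Γ (E.symm (Finsupp.single j 1, 0))
          have h := congrArg (fun φ : cuspidalHoms (ZMod (p i)) Γ (ZMod (p i)) =>
            (φ : Additive Γ →+ ZMod (p i)) g) ha
          simpa [v, hg, hc, hc', Fintype.sum_sum_type, Finsupp.single_apply, apply_ite] using h
        · obtain ⟨g, hg⟩ := toCuspidalQuot_surjective Γ (E.symm (0, DirectSum.of _ i 1))
          have h := congrArg (fun φ : cuspidalHoms (ZMod (p i)) Γ (ZMod (p i)) =>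
            (φ : Additive Γ →+ ZMod (p i)) g) ha
          simpa [v, hg, hc, hc', Fintype.sum_sum_type, map_one, -ZMod.castHom_apply] using h
      simpa using hv.fintype_card_le_finrank
  -- the free rank
  have hnd : n ≤ d := by
    by_cases hι : Nonempty ι
    · obtain ⟨i⟩ := hι
      exact le_trans (Nat.le_add_right _ _) (hk i)
    · have := Fact.mk Nat.prime_two
      have := hfin 2
      refine le_trans ?_ (hle 2)
      let v : Fin n → cuspidalHoms (ZMod 2) Γ (ZMod 2) := fun j =>
        ⟨((Int.castAddHom (ZMod 2)).comp (c j)).comp (toCuspidalQuot Γ),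
          isCuspidalHom_comp Γ _⟩
      have hv : LinearIndependent (ZMod 2) v := by
        rw [Fintype.linearIndependent_iff]
        intro a ha j
        obtain ⟨g, hg⟩ := toCuspidalQuot_surjective Γ (E.symm (Finsupp.single j 1, 0))
        have h := congrArg (fun φ : cuspidalHoms (ZMod 2) Γ (ZMod 2) =>
          (φ : Additive Γ →+ ZMod 2) g) ha
        simpa [v, hg, hc, Finsupp.single_apply, apply_ite] using h
      simpa using hv.fintype_card_le_finrank
  -- lifts of the free basis
  choose γ' hγ using fun j : Fin n =>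
    toCuspidalQuot_surjective Γ (E.symm (Finsupp.single j 1, 0))
  -- a cuspidal homomorphism into a torsion-free group is determined on the lifts
  have hdn : d ≤ n := by
    let ev : cuspidalHoms ℂ Γ ℂ →ₗ[ℂ] (Fin n → ℂ) :=
      { toFun := fun φ j => (φ : Additive Γ →+ ℂ) (γ' j)
        map_add' := fun _ _ => rfl
        map_smul' := fun _ _ => rfl }
    have hev : Function.Injective ev := by
      rw [injective_iff_map_eq_zero]
      intro φ hφ
      obtain ⟨f, hf⟩ := exists_factor_cuspidalQuot φ.2
      have h1 : ∀ (j : Fin n) (m : ℤ), f (E.symm (Finsupp.single j m, 0)) = 0 := by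
        intro j m
        have h := congrFun hφ j
        simp only [ev, LinearMap.coe_mk, AddHom.coe_mk, Pi.zero_apply, ← hf,
          AddMonoidHom.comp_apply, hγ] at h
        have e : ((Finsupp.single j m, 0) : (Fin n →₀ ℤ) × ⨁ i : ι, ZMod (p i ^ k i)) =
            m • (Finsupp.single j (1 : ℤ), 0) := by simp
        rw [e, map_zsmul, map_zsmul, h, smul_zero]
      have h2 : ∀ (i : ι) (z : ZMod (p i ^ k i)),
          f (E.symm (0, DirectSum.of (fun i => ZMod (p i ^ k i)) i z)) = 0 := by
        intro i z
        have e : (p i ^ k i) •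
            ((0, DirectSum.of (fun i => ZMod (p i ^ k i)) i z) :
              (Fin n →₀ ℤ) × ⨁ i : ι, ZMod (p i ^ k i)) = 0 := by
          rw [Prod.smul_mk, smul_zero, ← map_nsmul, ZModModule.char_nsmul_eq_zero, map_zero]
          rfl
        have h := congrArg (fun x => f (E.symm x)) e
        simp only [map_nsmul, map_zero, nsmul_eq_mul, mul_eq_zero] at h
        exact h.resolve_left (by exact_mod_cast pow_ne_zero _ (hp i).ne_zero)
      have h3 : ∀ x, f (E.symm x) = 0 := by
        rintro ⟨a, b⟩
        have e : ((a, b) : (Fin n →₀ ℤ) × ⨁ i : ι, ZMod (p i ^ k i)) = (a, 0) + (0, b) := by simp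
        have ha : f (E.symm (a, 0)) = 0 := by
          induction a using Finsupp.induction_linear with
          | zero => simp [← Prod.zero_eq_mk]
          | add x y hx hy =>
            rw [show ((x + y, 0) : (Fin n →₀ ℤ) × ⨁ i : ι, ZMod (p i ^ k i)) = (x, 0) + (y, 0) by
              simp, map_add, map_add, hx (by simp), hy (by simp), add_zero]
          | single j m => exact h1 j m
        have hb : f (E.symm (0, b)) = 0 := by
          induction b using DirectSum.induction_on with
          | zero => simp [← Prod.zero_eq_mk]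
          | add x y hx hy =>
            rw [show ((0, x + y) : (Fin n →₀ ℤ) × ⨁ i : ι, ZMod (p i ^ k i)) = (0, x) + (0, y) by
              simp, map_add, map_add, hx (by simp), hy (by simp), add_zero]
          | of i z => exact h2 i z
        rw [e, map_add, map_add, ha, hb, add_zero]
      refine Subtype.ext (hf.symm.trans (AddMonoidHom.ext fun g => ?_))
      simpa using h3 (E (toCuspidalQuot Γ g))
    have := LinearMap.finrank_le_finrank_of_injective hev
    rw [Module.finrank_pi] at this
    simpa using hge.trans this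
  obtain rfl : n = d := le_antisymm hnd hdn
  have hsub : ∀ q : CuspidalQuot Γ, (E q).2 = 0 := fun q => by
    refine DFinsupp.ext fun i => ?_
    have hki : k i = 0 := by
      by_contra hki
      simpa [if_neg hki] using hk i
    have : Subsingleton (ZMod (p i ^ k i)) := by
      rw [hki, pow_zero]
      infer_instance
    exact Subsingleton.elim _ _
  refine ⟨fun j => (γ' j).toMul, fun j => (c j).comp (toCuspidalQuot Γ),
    fun i => isCuspidalHom_comp Γ _, fun i j => ?_, fun A _ φ hφ g => ?_⟩
  · rw [AddMonoidHom.comp_apply, ofMul_toMul, hγ, hc, AddEquiv.apply_symm_apply,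
      Finsupp.single_apply]
    simp [eq_comm]
  · obtain ⟨f, rfl⟩ := exists_factor_cuspidalQuot hφ
    simp only [AddMonoidHom.comp_apply, ofMul_toMul, hγ, ← map_zsmul, ← map_sum, hc]
    congr 1
    rw [AddEquiv.eq_symm_apply]
    refine Prod.ext ?_ ?_
    · rw [Prod.fst_sum]
      simp
    · rw [Prod.snd_sum, hsub]
      simp

end Fermat.Agent.Periods
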