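import Fermat.Agent.Periods.Dimension
import Fermat.Agent.Periods.CuspidalQuotient
import Fermat.Agent.Periods.ParabolicBasis

/-!
Team PER (helper48): the cuspidal quotient of `Γ₀(N)` is free of rank `2 g` over `ℤ`.
-/

set_option autoImplicit false

open CongruenceSubgroup ModularCurve ModularCurve.Period
open scoped MatrixGroups

universe u

namespace Fermat.Agent.Periods

variable (N : ℕ) [NeZero N]

/-- An integral basis of the cuspidal quotient of `Γ₀(N)`, with its dual basis: every cuspidal
homomorphism into any abelian group is determined by, and arbitrary on, the `γ i`. -/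
theorem exists_cuspidalBasis :
    ∃ (γ : Fin (2 * Module.finrank ℂ (CuspForm (Gamma0 N) 2)) → Gamma0 N)
      (e : Fin (2 * Module.finrank ℂ (CuspForm (Gamma0 N) 2)) → (Additive (Gamma0 N) →+ ℤ)),
      (∀ i, IsCuspidalHom (e i)) ∧
      (∀ i j, e i (Additive.ofMul (γ j)) = if i = j then 1 else 0) ∧
      ∀ (A : Type u) [AddCommGroup A] (φ : Additive (Gamma0 N) →+ A), IsCuspidalHom φ →
        ∀ g, φ g = ∑ i, e i g • φ (Additive.ofMul (γ i)) := by
  have := groupFG_gamma0 N
  refine exists_cuspidalBasis_of_bounds.{u} (Gamma0 N)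
    (fun p _ => finite_cuspidalHoms N (ZMod p)) (fun p _ => ?_) ?_
  · have h := finrank_cuspidalHoms_le N (ZMod p)
    rw [← finrank_cuspForm_eq_genusFormula N] at h
    exact_mod_cast h
  · rw [← parabolicHoms_eq_cuspidalHoms N ℂ ℂ]
    exact (finrank_parabolicHoms_eq N).ge

omit [NeZero N] in
theorem intCast_comp_mem_parabolicHoms {φ : Additive (Gamma0 N) →+ ℤ}
    (hφ : φ ∈ parabolicHoms ℤ (Gamma0 N) ℤ) :
    (Int.castAddHom ℂ).comp φ ∈ parabolicHoms ℂ (Gamma0 N) ℂ := fun γ hγ => by
  rw [AddMonoidHom.comp_apply, hφ γ hγ, map_zero]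

/-- The complexification of the integral parabolic homomorphisms is everything. -/
theorem span_int_parabolicHoms :
    Submodule.span ℂ
        ((fun φ : Additive (Gamma0 N) →+ ℤ => (Int.castAddHom ℂ).comp φ) ''
          {φ | φ ∈ parabolicHoms ℤ (Gamma0 N) ℤ}) =
      parabolicHoms ℂ (Gamma0 N) ℂ := by
  have := groupFG_gamma0 N
  refine le_antisymm (Submodule.span_le.mpr ?_) fun φ hφ => ?_
  · rintro _ ⟨ψ, hψ, rfl⟩
    exact intCast_comp_mem_parabolicHoms N hψ
  · obtain ⟨r, γ, e, he, -, hspan⟩ := exists_integralParabolicBasis (Gamma0 N)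
    have h : φ = ∑ i, φ (Additive.ofMul (γ i)) • (Int.castAddHom ℂ).comp (e i) := by
      refine AddMonoidHom.ext fun g => ?_
      rw [AddMonoidHom.finsetSum_apply]
      refine (hspan φ hφ g).trans (Finset.sum_congr rfl fun i _ => ?_)
      simp [mul_comm]
    rw [h]
    exact Submodule.sum_mem _ fun i _ => Submodule.smul_mem _ _
      (Submodule.subset_span ⟨e i, he i, rfl⟩)

end Fermat.Agent.Periods
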