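import Fermat.Agent.Periods.Hecke

/-!
# The Hecke operators on `Hom(Γ₀(N), A)` commute

For primes `p ≠ q` the products of the two families of representatives, in either order,
represent the same cosets, so both composites are the transfer along the same family.
-/

set_option autoImplicit false

noncomputable section

namespace Fermat.Agent.Periods

open CongruenceSubgroup ModularCurve.Period
open scoped MatrixGroups

variable {N p q : ℕ}

/-- The products of the representatives for `q` (on the left) and for `p`. -/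
def heckeProd (N p q : ℕ) (x : HeckeIdx N p × HeckeIdx N q) : IntMat :=
  heckeMat N q x.2 * heckeMat N p x.1

theorem heckeProd_det_ne_zero (hp : p.Prime) (hq : q.Prime) (x : HeckeIdx N p × HeckeIdx N q) :
    (heckeProd N p q x).det ≠ 0 := by
  rw [heckeProd, Matrix.det_mul]
  exact mul_ne_zero (heckeMat_det_ne_zero hq _) (heckeMat_det_ne_zero hp _)

/-- Right multiplication on the products of representatives. -/
def prodPerm (hp : p.Prime) (hq : q.Prime) (γ : Gamma0 N) :
    Equiv.Perm (HeckeIdx N p × HeckeIdx N q) where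
  toFun x := (transferPerm hp γ x.1, transferPerm hq (transferElt hp γ x.1) x.2)
  invFun y := ((transferPerm hp γ).symm y.1,
    (transferPerm hq (transferElt hp γ ((transferPerm hp γ).symm y.1))).symm y.2)
  left_inv x := by simp [-transferPerm_apply]
  right_inv y := by simp [-transferPerm_apply]

theorem cosetStep_heckeProd (hp : p.Prime) (hq : q.Prime) (γ : Gamma0 N) :
    CosetStep (heckeProd N p q) γ (prodPerm hp hq γ)
      (fun x => transferElt hq (transferElt hp γ x.1) x.2) := by
  rintro ⟨i, k⟩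
  show heckeMat N q k * heckeMat N p i * gammaMat γ = _
  rw [Matrix.mul_assoc, cosetStep_transfer hp γ i, ← Matrix.mul_assoc,
    cosetStep_transfer hq (transferElt hp γ i) k, Matrix.mul_assoc]
  rfl

theorem intMat_upper_coset {g : Gamma0 N} {A B D A' B' D' : ℤ} (hA : 0 < A) (hA' : 0 < A')
    (hD : 0 < D) (hD' : 0 < D')
    (h : (!![A, B; 0, D] : IntMat) = gammaMat g * !![A', B'; 0, D']) :
    A = A' ∧ D = D' ∧ D ∣ B - B' := by
  obtain ⟨a, b, c, d, hg, hdet, -⟩ := gammaMat_entries g
  rw [hg, Matrix.mul_fin_two] at h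
  have h00 := congrFun (congrFun h 0) 0
  have h01 := congrFun (congrFun h 0) 1
  have h10 := congrFun (congrFun h 1) 0
  have h11 := congrFun (congrFun h 1) 1
  simp at h00 h01 h10 h11
  obtain rfl : c = 0 := h10.resolve_right hA'.ne'
  rw [mul_zero, sub_zero] at hdet
  rw [zero_mul, zero_add] at h11
  have ha : a = 1 := by
    rcases Int.eq_one_or_neg_one_of_mul_eq_one hdet with h | h
    · exact h
    · subst h; nlinarith
  subst ha
  rw [one_mul] at hdet
  subst hdet
  refine ⟨by rw [h00, one_mul], by rw [h11, one_mul], b, ?_⟩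
  rw [h01, h11]; ring

theorem heckeProd_separated (hp : p.Prime) (hq : q.Prime) (hpq : p ≠ q) :
    IsSeparated (Gamma0 N) (heckeProd N p q) := by
  have hcop : IsCoprime (p : ℤ) (q : ℤ) :=
    Nat.isCoprime_iff_coprime.2 ((Nat.coprime_primes hp hq).2 hpq)
  have hp1 : (1 : ℤ) < p := by exact_mod_cast hp.one_lt
  have hq1 : (1 : ℤ) < q := by exact_mod_cast hq.one_lt
  have hp0 : (0 : ℤ) < p := by omega
  have hq0 : (0 : ℤ) < q := by omega
  have hne : (p : ℤ) ≠ q := by exact_mod_cast hpq
  rintro ⟨⟨i, hi⟩, k, hk⟩ ⟨⟨i', hi'⟩, k', hk'⟩ g h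
  rcases i with _ | i <;> rcases k with _ | k <;> rcases i' with _ | i' <;>
    rcases k' with _ | k' <;>
    simp only [heckeProd, heckeMat, Option.elim, Matrix.mul_fin_two (α := ℤ), mul_zero, zero_mul,
      add_zero, zero_add, one_mul, mul_one] at h <;>
    obtain ⟨hA, hD, hB⟩ := intMat_upper_coset
      (by first | exact one_pos | assumption | exact mul_pos hq0 hp0)
      (by first | exact one_pos | assumption | exact mul_pos hq0 hp0)
      (by first | exact one_pos | assumption | exact mul_pos hq0 hp0)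
      (by first | exact one_pos | assumption | exact mul_pos hq0 hp0) h <;>
    first
      | rfl
      | (exfalso; first | exact hne (by linarith) | nlinarith)
      | skip
  -- `p` diagonal, `q` upper
  · obtain ⟨m, hm⟩ := hB
    obtain rfl : k = k' := fin_eq_of_dvd_sub (x := m) (by linarith)
    rfl
  -- `p` upper, `q` diagonal
  · rw [← mul_sub] at hB
    obtain ⟨m, hm⟩ := hcop.dvd_of_dvd_mul_left hB
    obtain rfl : i = i' := fin_eq_of_dvd_sub (x := m) (by linarith)
    rfl
  -- both upper
  · obtain ⟨m, hm⟩ := hB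
    obtain rfl : i = i' := fin_eq_of_dvd_sub
      (x := ((k' : ℕ) : ℤ) - (k : ℕ) + q * m) (by linear_combination hm)
    obtain rfl : k = k' := fin_eq_of_dvd_sub (x := m)
      (mul_left_cancel₀ hp0.ne' (by linear_combination hm))
    rfl

theorem heckeProd_swap (hp : p.Prime) (hq : q.Prime) (hpq : p ≠ q)
    (x : HeckeIdx N p × HeckeIdx N q) :
    ∃ (y : HeckeIdx N q × HeckeIdx N p) (g : Gamma0 N),
      heckeProd N p q x = gammaMat g * heckeProd N q p y := by
  have hcop : IsCoprime (p : ℤ) (q : ℤ) :=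
    Nat.isCoprime_iff_coprime.2 ((Nat.coprime_primes hp hq).2 hpq)
  obtain ⟨⟨_ | i, hi⟩, _ | k, hk⟩ := x
  · refine ⟨(⟨none, hk⟩, ⟨none, hi⟩), 1, ?_⟩
    simp [heckeProd, heckeMat, gammaMat_one, mul_comm]
  · obtain ⟨l, t, ht⟩ := exists_fin_mul_sub_dvd hq.ne_zero hcop (k : ℕ)
    obtain ⟨g, hg⟩ := exists_gamma0_of_entries (N := N) (a := 1) (b := t) (c := 0) (d := 1)
      (by ring) (dvd_zero _)
    refine ⟨(⟨some l, by simp⟩, ⟨none, hi⟩), g, ?_⟩
    simp only [heckeProd, heckeMat, Option.elim, hg, Matrix.mul_fin_two]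
    congrm !![?_, ?_; ?_, ?_]
    · ring
    · linear_combination ht
    · ring
    · ring
  · obtain ⟨l, t, ht⟩ := exists_fin_mul_sub_dvd hp.ne_zero (a := (1 : ℤ)) isCoprime_one_left
      ((q : ℤ) * (i : ℕ))
    obtain ⟨g, hg⟩ := exists_gamma0_of_entries (N := N) (a := 1) (b := t) (c := 0) (d := 1)
      (by ring) (dvd_zero _)
    refine ⟨(⟨none, hk⟩, ⟨some l, by simp⟩), g, ?_⟩
    simp only [heckeProd, heckeMat, Option.elim, hg, Matrix.mul_fin_two]
    congrm !![?_, ?_; ?_, ?_]
    · ring
    · linear_combination ht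
    · ring
    · ring
  · have hlt : ((i : ℕ) + (k : ℕ) * p) / q < p := by
      rw [Nat.div_lt_iff_lt_mul hq.pos]
      have := i.2
      have := k.2
      nlinarith
    refine ⟨(⟨some ⟨((i : ℕ) + (k : ℕ) * p) % q, Nat.mod_lt _ hq.pos⟩, by simp⟩,
      ⟨some ⟨((i : ℕ) + (k : ℕ) * p) / q, hlt⟩, by simp⟩), 1, ?_⟩
    have e := Nat.mod_add_div ((i : ℕ) + (k : ℕ) * p) q
    zify at e
    simp only [heckeProd, heckeMat, Option.elim, gammaMat_one, Matrix.one_mul, Matrix.mul_fin_two]
    congrm !![?_, ?_; ?_, ?_]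
    · ring
    · push_cast; linear_combination -e
    · ring
    · ring

variable {R : Type*} [Semiring R] {A : Type*} [AddCommGroup A] [Module R A]

/-- The Hecke operators on `Hom(Γ₀(N), A)` commute, for any abelian group `A`. -/
theorem heckeHom_comm (hp : p.Prime) (hq : q.Prime) (φ : Additive (Gamma0 N) →+ A) :
    heckeHom R A hp (heckeHom R A hq φ) = heckeHom R A hq (heckeHom R A hp φ) := by
  rcases eq_or_ne p q with rfl | hpq
  · rfl
  refine AddMonoidHom.ext fun γ' => ?_
  obtain ⟨γ, rfl⟩ := Additive.ofMul.surjective γ'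
  choose e δ hδ using heckeProd_swap (N := N) hp hq hpq
  have hbij : Function.Bijective e := by
    refine (Fintype.bijective_iff_injective_and_card e).2 ⟨fun x y hxy => ?_, ?_⟩
    · refine heckeProd_separated hp hq hpq x y (δ x * (δ y)⁻¹) ?_
      rw [hδ x, hδ y, ← Matrix.mul_assoc, ← gammaMat_mul, inv_mul_cancel_right, hxy]
    · simp [Fintype.card_prod, mul_comm]
  set E := Equiv.ofBijective e hbij with hE
  have hEe : ∀ x, E x = e x := fun _ => rfl
  set π := prodPerm hq hp γ
  set h₂ : HeckeIdx N q × HeckeIdx N p → Gamma0 N :=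
    fun y => transferElt hp (transferElt hq γ y.1) y.2 with hh₂
  set σ : Equiv.Perm (HeckeIdx N p × HeckeIdx N q) := E.trans (π.trans E.symm) with hσ
  have hstep : CosetStep (heckeProd N p q) γ σ (fun x => δ x * h₂ (e x) * (δ (σ x))⁻¹) := by
    intro x
    have h1 : heckeProd N q p (e x) * gammaMat γ = gammaMat (h₂ (e x)) * heckeProd N q p (π (e x)) :=
      cosetStep_heckeProd hq hp γ (e x)
    have h2 : e (σ x) = π (e x) := by
      rw [← hEe (σ x), hσ, Equiv.trans_apply, Equiv.trans_apply, Equiv.apply_symm_apply, hEe]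
    rw [hδ x, hδ (σ x), Matrix.mul_assoc, h1, h2, ← Matrix.mul_assoc, ← Matrix.mul_assoc,
      ← gammaMat_mul, ← gammaMat_mul, inv_mul_cancel_right]
  have key := CosetStep.sum_eq (heckeProd_det_ne_zero hp hq) (cosetStep_heckeProd hp hq γ) hstep φ
  simp only [ofMul_mul, ofMul_inv, map_add, map_neg, Finset.sum_add_distrib,
    Finset.sum_neg_distrib, Equiv.sum_comp σ (fun x => φ (Additive.ofMul (δ x))),
    hbij.sum_comp (fun y => φ (Additive.ofMul (h₂ y)))] at key
  rw [add_neg_eq_iff_eq_add.2 (add_comm _ _)] at key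
  simp only [Fintype.sum_prod_type, hh₂] at key
  simpa only [heckeHom_apply] using key

/-- The Hecke operators commute, as endomorphisms. -/
theorem heckeHom_commute (hp : p.Prime) (hq : q.Prime) :
    Commute (heckeHom (N := N) R A hp) (heckeHom (N := N) R A hq) :=
  LinearMap.ext fun φ => heckeHom_comm hp hq φ

end Fermat.Agent.Periods

end
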