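import Fermat.Agent.Periods.EichlerIntegral
import Fermat.Agent.Periods.Hecke
import Fermat.Prelude.Def_ModularForm_HeckeOperatorForms

/-!
# The period maps intertwine the Hecke operators

If `F` is a primitive of `f`, then `G τ = ∑ i, F (Mᵢ τ)` is a primitive of `T_p f`, and
`G (γ τ) - G τ = ∑ i, P_f (gᵢ)` where `Mᵢ γ = gᵢ M_{σ i}`.
-/

set_option autoImplicit false

noncomputable section

namespace Fermat.Agent.Periods

open UpperHalfPlane hiding I
open CongruenceSubgroup ModularCurve ModularCurve.Period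
open scoped MatrixGroups ModularForm

variable {N p : ℕ}

/-- The Hecke representatives in `GL(2, ℝ)`. -/
def heckeGL (N p : ℕ) (i : HeckeIdx N p) : GL (Fin 2) ℝ :=
  i.1.elim (ModularForm.heckeDiagMatrix p) (fun j => ModularForm.heckeMatrix p j)

theorem val_heckeGL (hp : p ≠ 0) (i : HeckeIdx N p) :
    (heckeGL N p i).val = (heckeMat N p i).map (Int.cast : ℤ → ℝ) := by
  obtain ⟨_ | j, hi⟩ := i
  · simp only [heckeGL, heckeMat, Option.elim, ModularForm.val_heckeDiagMatrix hp]
    ext a b; fin_cases a <;> fin_cases b <;> simp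
  · simp only [heckeGL, heckeMat, Option.elim, ModularForm.val_heckeMatrix hp]
    ext a b; fin_cases a <;> fin_cases b <;> simp

theorem det_heckeGL_pos (i : HeckeIdx N p) : 0 < (heckeGL N p i).val.det := by
  rw [← Matrix.GeneralLinearGroup.val_det_apply]
  obtain ⟨_ | j, hi⟩ := i
  · exact ModularForm.det_heckeDiagMatrix_pos p
  · exact ModularForm.det_heckeMatrix_pos p j

/-- `Mᵢ • (γ • z) = gᵢ • (M_{σ i} • z)`. -/
theorem heckeGL_smul (hp : p.Prime) (γ : Gamma0 N) (i : HeckeIdx N p) (z : ℍ) :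
    heckeGL N p i • ((γ : SL(2, ℤ)) • z) =
      ((transferElt hp γ i : Gamma0 N) : SL(2, ℤ)) • (heckeGL N p (transferIdx hp γ i) • z) := by
  rw [ModularGroup.sl_moeb, ModularGroup.sl_moeb, smul_smul, smul_smul]
  congr 1
  apply Matrix.GeneralLinearGroup.ext
  intro a b
  have h := congrArg (fun X : IntMat => X.map (Int.castRingHom ℝ)) (transfer_spec hp γ i)
  simp only [Matrix.map_mul] at h
  rw [Units.val_mul, Units.val_mul, val_heckeGL hp.ne_zero, val_heckeGL hp.ne_zero]
  exact congrFun (congrFun h a) b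

theorem sum_heckeIdx_T {M : Type*} [AddCommMonoid M] (hpN : ¬ p ∣ N) (F : Option (Fin p) → M) :
    ∑ i : HeckeIdx N p, F i.1 = (∑ j : Fin p, F (some j)) + F none := by
  have e : ∑ i : HeckeIdx N p, F i.1 = ∑ x : Option (Fin p), F x :=
    Equiv.sum_comp (Equiv.subtypeUnivEquiv fun x _ => hpN) F
  rw [e, Fintype.sum_option, add_comm]

theorem sum_heckeIdx_U {M : Type*} [AddCommMonoid M] (hpN : p ∣ N) (F : Option (Fin p) → M) :
    ∑ i : HeckeIdx N p, F i.1 = ∑ j : Fin p, F (some j) := by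
  refine (Fintype.sum_bijective (fun j : Fin p => (⟨some j, by simp⟩ : HeckeIdx N p)) ⟨?_, ?_⟩ _ _
    fun j => rfl).symm
  · intro a b h; simpa using h
  · rintro ⟨_ | j, hj⟩
    · exact absurd hpN (hj rfl)
    · exact ⟨j, rfl⟩

variable (N p) in
/-- The sum of the translates of `f` by the Hecke representatives. -/
def heckeSlashSum (f : ℍ → ℂ) : ℍ → ℂ := ∑ i : HeckeIdx N p, f ∣[(2 : ℤ)] heckeGL N p i

theorem heckeSlashSum_T (hpN : ¬ p ∣ N) (f : ℍ → ℂ) :
    heckeSlashSum N p f = ModularForm.heckeT 2 p f := by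
  rw [ModularForm.heckeT_def, ← Fin.sum_univ_eq_sum_range (fun j => f ∣[(2 : ℤ)] ModularForm.heckeMatrix p j) p]
  exact sum_heckeIdx_T hpN fun x => f ∣[(2 : ℤ)]
    (x.elim (ModularForm.heckeDiagMatrix p) fun j => ModularForm.heckeMatrix p j)

theorem heckeSlashSum_U (hpN : p ∣ N) (f : ℍ → ℂ) :
    heckeSlashSum N p f = ModularForm.heckeU 2 p f := by
  rw [ModularForm.heckeU_def, ← Fin.sum_univ_eq_sum_range (fun j => f ∣[(2 : ℤ)] ModularForm.heckeMatrix p j) p]
  exact sum_heckeIdx_U hpN fun x => f ∣[(2 : ℤ)]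
    (x.elim (ModularForm.heckeDiagMatrix p) fun j => ModularForm.heckeMatrix p j)

theorem isPrimitive_heckeSlashSum {f F : ℍ → ℂ} (hF : IsPrimitive f F) :
    IsPrimitive (heckeSlashSum N p f) (fun τ => ∑ i : HeckeIdx N p, F (heckeGL N p i • τ)) := by
  intro τ
  have h := HasDerivAt.fun_sum (u := (Finset.univ : Finset (HeckeIdx N p))) fun i _ =>
    (hF.comp_smul (det_heckeGL_pos i) : IsPrimitive _ _) τ
  simpa [heckeSlashSum, Function.comp_def] using h

variable [NeZero N]

/-- A form whose underlying function is the sum of the Hecke translates of `f` has the transfer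
of the periods of `f` as periods. -/
theorem periodMap_eq_heckeHom (hp : p.Prime) (f g : CuspForm (Gamma0 N) 2)
    (h : (g : ℍ → ℂ) = heckeSlashSum N p f) :
    periodMap N g = heckeHom ℂ ℂ hp (periodMap N f) := by
  obtain ⟨F, hF⟩ := exists_hasEquivariantPrimitive f
  have hG : IsPrimitive g (fun τ => ∑ i : HeckeIdx N p, F (heckeGL N p i • τ)) := by
    rw [h]; exact isPrimitive_heckeSlashSum hF.1
  refine AddMonoidHom.ext fun x => ?_
  obtain ⟨γ, rfl⟩ := Additive.ofMul.surjective x
  set z : ℍ := UpperHalfPlane.I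
  rw [periodMap_apply g hG γ z, heckeHom_apply]
  simp only [heckeGL_smul hp γ]
  have e : ∀ i, periodMap N f (Additive.ofMul (transferElt hp γ i)) =
      F (((transferElt hp γ i : Gamma0 N) : SL(2, ℤ)) • (heckeGL N p (transferIdx hp γ i) • z)) -
        F (heckeGL N p (transferIdx hp γ i) • z) := fun i => periodMap_apply f hF.1 _ _
  rw [Finset.sum_congr rfl (fun i _ => e i), Finset.sum_sub_distrib,
    (transferIdx_bijective hp γ).sum_comp (fun i => F (heckeGL N p i • z))]

/-- The period map intertwines `T_p` with the transfer. -/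
theorem heckeHom_periodMap_T (hp : p.Prime) (hpN : ¬ p ∣ N) (f : CuspForm (Gamma0 N) 2) :
    heckeHom ℂ ℂ hp (periodMap N f) = periodMap N (CuspForm.heckeTLin 2 hp hpN f) :=
  (periodMap_eq_heckeHom hp f _ (heckeSlashSum_T hpN _).symm).symm

/-- The period map intertwines `U_p` with the transfer. -/
theorem heckeHom_periodMap_U (hp : p.Prime) (hpN : p ∣ N) (f : CuspForm (Gamma0 N) 2) :
    heckeHom ℂ ℂ hp (periodMap N f) = periodMap N (CuspForm.heckeULin 2 hpN f) :=
  (periodMap_eq_heckeHom hp f _ (heckeSlashSum_U hpN _).symm).symm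

theorem heckeHom_periodHomPair_T (hp : p.Prime) (hpN : ¬ p ∣ N) (f g : CuspForm (Gamma0 N) 2) :
    heckeHom ℂ ℂ hp (periodHomPair N (f, g)) =
      periodHomPair N (CuspForm.heckeTLin 2 hp hpN f, CuspForm.heckeTLin 2 hp hpN g) := by
  simp only [periodHomPair_apply, map_add, map_sub, heckeHom_charInvolution,
    heckeHom_periodMap_T hp hpN]

theorem heckeHom_periodHomPair_U (hp : p.Prime) (hpN : p ∣ N) (f g : CuspForm (Gamma0 N) 2) :
    heckeHom ℂ ℂ hp (periodHomPair N (f, g)) =
      periodHomPair N (CuspForm.heckeULin 2 hpN f, CuspForm.heckeULin 2 hpN g) := by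
  simp only [periodHomPair_apply, map_add, map_sub, heckeHom_charInvolution,
    heckeHom_periodMap_U hp hpN]

end Fermat.Agent.Periods

end
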